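import Fermat.Agent.EFlat.Proj

/-!
The addition law is given by bihomogeneous polynomials.
-/

set_option autoImplicit false
set_option linter.unusedSectionVars false

open WeierstrassCurve WeierstrassCurve.Projective

namespace Fermat.Agent.EFlat

section

variable {A 𝓕 : Type*} [CommRing A] [CommRing 𝓕] [Algebra A 𝓕] {N₁ N₂ : Submodule A 𝓕}

theorem mem_four {c : A} {a b d e : 𝓕} (ha : a ∈ N₁) (hb : b ∈ N₁) (hd : d ∈ N₂) (he : e ∈ N₂) :
    c • (a * b * (d * e)) ∈ N₁ ^ 2 * N₂ ^ 2 := by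
  rw [pow_two, pow_two]
  exact Submodule.smul_mem _ _
    (Submodule.mul_mem_mul (Submodule.mul_mem_mul ha hb) (Submodule.mul_mem_mul hd he))

variable (W : WeierstrassCurve A) {u v : Fin 3 → 𝓕}

theorem addZ_mem (hu : ∀ i, u i ∈ N₁) (hv : ∀ i, v i ∈ N₂) :
    (W.map (algebraMap A 𝓕)).toProjective.addZ u v ∈ N₁ ^ 2 * N₂ ^ 2 := by
  have h : (W.map (algebraMap A 𝓕)).toProjective.addZ u v =
      ((-(3)) : A) • (u 0 * u 0 * (v 0 * v 2)) +
      ((3) : A) • (u 0 * u 2 * (v 0 * v 0)) +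
      ((1) : A) • (u 1 * u 1 * (v 2 * v 2)) +
      ((-(1)) : A) • (u 2 * u 2 * (v 1 * v 1)) +
      ((W.a₁) : A) • (u 0 * u 1 * (v 2 * v 2)) +
      ((-(W.a₁)) : A) • (u 2 * u 2 * (v 0 * v 1)) +
      ((-(W.a₂)) : A) • (u 0 * u 0 * (v 2 * v 2)) +
      ((W.a₂) : A) • (u 2 * u 2 * (v 0 * v 0)) +
      ((W.a₃) : A) • (u 1 * u 2 * (v 2 * v 2)) +
      ((-(W.a₃)) : A) • (u 2 * u 2 * (v 1 * v 2)) +
      ((-(W.a₄)) : A) • (u 0 * u 2 * (v 2 * v 2)) +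
      ((W.a₄) : A) • (u 2 * u 2 * (v 0 * v 2)) := by
    simp only [addZ, Algebra.smul_def, WeierstrassCurve.map_a₁, WeierstrassCurve.map_a₂,
      WeierstrassCurve.map_a₃, WeierstrassCurve.map_a₄, WeierstrassCurve.map_a₆, map_mul, map_neg,
      map_one, map_ofNat]
    ring
  rw [h]
  repeat' apply Submodule.add_mem
  all_goals exact mem_four (hu _) (hu _) (hv _) (hv _)

theorem addX_mem (hu : ∀ i, u i ∈ N₁) (hv : ∀ i, v i ∈ N₂) :
    (W.map (algebraMap A 𝓕)).toProjective.addX u v ∈ N₁ ^ 2 * N₂ ^ 2 := by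
  have h : (W.map (algebraMap A 𝓕)).toProjective.addX u v =
      ((-(1)) : A) • (u 0 * u 2 * (v 1 * v 1)) +
      ((1) : A) • (u 1 * u 1 * (v 0 * v 2)) +
      ((-(2)) : A) • (u 0 * u 1 * (v 1 * v 2)) +
      ((2) : A) • (u 1 * u 2 * (v 0 * v 1)) +
      ((-(W.a₁)) : A) • (u 0 * u 0 * (v 1 * v 2)) +
      ((W.a₁) : A) • (u 1 * u 2 * (v 0 * v 0)) +
      ((W.a₂) : A) • (u 0 * u 0 * (v 0 * v 2)) +
      ((-(W.a₂)) : A) • (u 0 * u 2 * (v 0 * v 0)) +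
      ((-(W.a₃)) : A) • (u 0 * u 1 * (v 2 * v 2)) +
      ((W.a₃) : A) • (u 2 * u 2 * (v 0 * v 1)) +
      ((-(2 * W.a₃)) : A) • (u 0 * u 2 * (v 1 * v 2)) +
      ((2 * W.a₃) : A) • (u 1 * u 2 * (v 0 * v 2)) +
      ((W.a₄) : A) • (u 0 * u 0 * (v 2 * v 2)) +
      ((-(W.a₄)) : A) • (u 2 * u 2 * (v 0 * v 0)) +
      ((3 * W.a₆) : A) • (u 0 * u 2 * (v 2 * v 2)) +
      ((-(3 * W.a₆)) : A) • (u 2 * u 2 * (v 0 * v 2)) := by
    simp only [addX, Algebra.smul_def, WeierstrassCurve.map_a₁, WeierstrassCurve.map_a₂,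
      WeierstrassCurve.map_a₃, WeierstrassCurve.map_a₄, WeierstrassCurve.map_a₆, map_mul, map_neg,
      map_one, map_ofNat]
    ring
  rw [h]
  repeat' apply Submodule.add_mem
  all_goals exact mem_four (hu _) (hu _) (hv _) (hv _)

theorem negAddY_mem (hu : ∀ i, u i ∈ N₁) (hv : ∀ i, v i ∈ N₂) :
    (W.map (algebraMap A 𝓕)).toProjective.negAddY u v ∈ N₁ ^ 2 * N₂ ^ 2 := by
  have h : (W.map (algebraMap A 𝓕)).toProjective.negAddY u v =
      ((-(3)) : A) • (u 0 * u 0 * (v 0 * v 1)) +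
      ((3) : A) • (u 0 * u 1 * (v 0 * v 0)) +
      ((-(1)) : A) • (u 1 * u 1 * (v 1 * v 2)) +
      ((1) : A) • (u 1 * u 2 * (v 1 * v 1)) +
      ((W.a₁) : A) • (u 0 * u 2 * (v 1 * v 1)) +
      ((-(W.a₁)) : A) • (u 1 * u 1 * (v 0 * v 2)) +
      ((-(W.a₂)) : A) • (u 0 * u 0 * (v 1 * v 2)) +
      ((W.a₂) : A) • (u 1 * u 2 * (v 0 * v 0)) +
      ((2 * W.a₂) : A) • (u 0 * u 1 * (v 0 * v 2)) +
      ((-(2 * W.a₂)) : A) • (u 0 * u 2 * (v 0 * v 1)) +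
      ((-(W.a₃)) : A) • (u 1 * u 1 * (v 2 * v 2)) +
      ((W.a₃) : A) • (u 2 * u 2 * (v 1 * v 1)) +
      ((W.a₄) : A) • (u 0 * u 1 * (v 2 * v 2)) +
      ((-(2 * W.a₄)) : A) • (u 0 * u 2 * (v 1 * v 2)) +
      ((2 * W.a₄) : A) • (u 1 * u 2 * (v 0 * v 2)) +
      ((-(W.a₄)) : A) • (u 2 * u 2 * (v 0 * v 1)) +
      ((3 * W.a₆) : A) • (u 1 * u 2 * (v 2 * v 2)) +
      ((-(3 * W.a₆)) : A) • (u 2 * u 2 * (v 1 * v 2)) := by
    simp only [negAddY, Algebra.smul_def, WeierstrassCurve.map_a₁, WeierstrassCurve.map_a₂,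
      WeierstrassCurve.map_a₃, WeierstrassCurve.map_a₄, WeierstrassCurve.map_a₆, map_mul, map_neg,
      map_one, map_ofNat]
    ring
  rw [h]
  repeat' apply Submodule.add_mem
  all_goals exact mem_four (hu _) (hu _) (hv _) (hv _)


theorem addXYZ_mem (hu : ∀ i, u i ∈ N₁) (hv : ∀ i, v i ∈ N₂) (i : Fin 3) :
    (W.map (algebraMap A 𝓕)).toProjective.addXYZ u v i ∈ N₁ ^ 2 * N₂ ^ 2 := by
  fin_cases i
  · exact addX_mem W hu hv
  · change (W.map (algebraMap A 𝓕)).toProjective.addY u v ∈ _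
    rw [addY, negY_eq]
    refine Submodule.sub_mem _ (Submodule.sub_mem _ (Submodule.neg_mem _ (negAddY_mem W hu hv)) ?_) ?_
    · rw [WeierstrassCurve.map_a₁, ← Algebra.smul_def]
      exact Submodule.smul_mem _ _ (addX_mem W hu hv)
    · rw [WeierstrassCurve.map_a₃, ← Algebra.smul_def]
      exact Submodule.smul_mem _ _ (addZ_mem W hu hv)
  · exact addZ_mem W hu hv

theorem neg_mem (hu : ∀ i, u i ∈ N₁) (i : Fin 3) :
    (W.map (algebraMap A 𝓕)).toProjective.neg u i ∈ N₁ := by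
  fin_cases i
  · exact hu 0
  · change (W.map (algebraMap A 𝓕)).toProjective.negY u ∈ _
    rw [negY]
    refine Submodule.sub_mem _ (Submodule.sub_mem _ (Submodule.neg_mem _ (hu 1)) ?_) ?_
    · rw [WeierstrassCurve.map_a₁, ← Algebra.smul_def]
      exact Submodule.smul_mem _ _ (hu 0)
    · rw [WeierstrassCurve.map_a₃, ← Algebra.smul_def]
      exact Submodule.smul_mem _ _ (hu 2)
  · exact hu 2

end

end Fermat.Agent.EFlat
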