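import Fermat.Agent.EFlat.Form

/-!
A criterion for flatness in terms of projective coordinates.
-/

set_option autoImplicit false
set_option linter.unusedSectionVars false

namespace Fermat.Agent.EFlat

open Fermat.Agent.HopfOrder GaloisRep

local notation "Qb" => AlgebraicClosure ℚ

theorem nonunit_mem {p : ℕ} [hp : Fact p.Prime] (A : ValuationSubring Qb)
    (hA : A.LiesOverPrime p) (r : ratLocalizedAt p) (hr : ¬ IsUnit r) :
    algebraMap (ratLocalizedAt p) Qb r ∈ A.nonunits := by
  have hloc := isLocalization_ratLocalizedAt p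
  obtain ⟨n, s, rfl⟩ := IsLocalization.exists_mk'_eq (Ideal.span {(p : ℤ)}).primeCompl r
  have hn : n ∈ Ideal.span {(p : ℤ)} := by
    by_contra h
    exact hr ((IsLocalization.AtPrime.isUnit_mk'_iff (ratLocalizedAt p) _ n s).2 h)
  obtain ⟨m, rfl⟩ := Ideal.mem_span_singleton.1 hn
  have h1 := IsLocalization.mk'_spec (ratLocalizedAt p) ((p : ℤ) * m) s
  have h2 := congrArg (algebraMap (ratLocalizedAt p) Qb) h1
  rw [map_mul] at h2
  obtain ⟨u, hu⟩ := IsLocalization.map_units (ratLocalizedAt p) s
  have hs : A.valuation (algebraMap (ratLocalizedAt p) Qb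
      (algebraMap ℤ (ratLocalizedAt p) s)) = 1 := by
    rw [← hu]
    have e1 : A.valuation (algebraMap (ratLocalizedAt p) Qb (u : ratLocalizedAt p)) ≤ 1 :=
      (A.valuation_le_one_iff _).2 (algebraMap_mem_of_liesOver p A hA _)
    have e2 : A.valuation (algebraMap (ratLocalizedAt p) Qb (↑u⁻¹ : ratLocalizedAt p)) ≤ 1 :=
      (A.valuation_le_one_iff _).2 (algebraMap_mem_of_liesOver p A hA _)
    have e3 : A.valuation (algebraMap (ratLocalizedAt p) Qb (u : ratLocalizedAt p)) *
        A.valuation (algebraMap (ratLocalizedAt p) Qb (↑u⁻¹ : ratLocalizedAt p)) = 1 := by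
      rw [← map_mul, ← map_mul, Units.mul_inv, map_one, map_one]
    refine le_antisymm e1 ?_
    rw [← e3]
    exact mul_le_of_le_one_right' e2
  have h3 : A.valuation (algebraMap (ratLocalizedAt p) Qb
      (IsLocalization.mk' (ratLocalizedAt p) ((p : ℤ) * m) s)) < 1 := by
    have h4 := congrArg A.valuation h2
    rw [map_mul, hs, mul_one] at h4
    rw [h4]
    have h5 : algebraMap (ratLocalizedAt p) Qb (algebraMap ℤ (ratLocalizedAt p) ((p : ℤ) * m)) =
        (p : Qb) * (m : Qb) := by
      rw [map_mul, map_mul, map_natCast, map_natCast]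
      congr 1
    rw [h5, map_mul]
    have h6 : A.valuation (m : Qb) ≤ 1 := (A.valuation_le_one_iff _).2 (intCast_mem A m)
    exact lt_of_le_of_lt (mul_le_of_le_one_right' h6) hA
  exact h3

section TensorAlg

variable {R Ω X : Type} [CommRing R] [Field Ω] [Algebra R Ω]

/-- The algebra of functions on `X × X` spanned by products. -/
def tensorAlg (H : Subalgebra R (X → Ω)) : Subalgebra R (X × X → Ω) where
  carrier := tensorSpan H
  mul_mem' := fun ha hb => mul_mem_tensorSpan H ha hb
  add_mem' := fun ha hb => (tensorSpan H).add_mem ha hb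
  algebraMap_mem' := fun r => by
    have h1 : algebraMap R (X × X → Ω) r = r • (1 : X × X → Ω) := Algebra.algebraMap_eq_smul_one r
    rw [h1]
    exact (tensorSpan H).smul_mem _ (one_mem_tensorSpan H)

theorem fst_mem (H : Subalgebra R (X → Ω)) {f : X → Ω} (hf : f ∈ H) :
    (fun z : X × X => f z.1) ∈ tensorAlg H :=
  Submodule.subset_span ⟨f, hf, 1, H.one_mem, by funext z; simp⟩

theorem snd_mem (H : Subalgebra R (X → Ω)) {f : X → Ω} (hf : f ∈ H) :
    (fun z : X × X => f z.2) ∈ tensorAlg H :=
  Submodule.subset_span ⟨1, H.one_mem, f, hf, by funext z; simp⟩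

variable (A : ValuationSubring Ω)

theorem loc_fst (H : Subalgebra R (X → Ω)) {f : X → Ω} (hf : f ∈ loc A H) :
    (fun z : X × X => f z.1) ∈ loc A (tensorAlg H) := by
  have h : loc A H ≤ (loc A (tensorAlg H)).comap (pull A Ω (Prod.fst : X × X → X)) := by
    refine Algebra.adjoin_le ?_
    intro g hg
    exact Algebra.subset_adjoin (fst_mem H hg)
  exact h hf

theorem loc_snd (H : Subalgebra R (X → Ω)) {f : X → Ω} (hf : f ∈ loc A H) :
    (fun z : X × X => f z.2) ∈ loc A (tensorAlg H) := by
  have h : loc A H ≤ (loc A (tensorAlg H)).comap (pull A Ω (Prod.snd : X × X → X)) := by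
    refine Algebra.adjoin_le ?_
    intro g hg
    exact Algebra.subset_adjoin (snd_mem H hg)
  exact h hf

end TensorAlg

section Main

variable {p : ℕ} [hp : Fact p.Prime] {X : Type} [AddCommGroup X] [Finite X]
  [DistribMulAction GQ X]

theorem isContAction_prod (hX : IsContAction ℚ Qb X) : IsContAction ℚ Qb (X × X) := by
  obtain ⟨L, hL, h⟩ := hX
  exact ⟨L, hL, fun σ hσ z => Prod.ext (h σ hσ z.1) (h σ hσ z.2)⟩

theorem isFlatMod_of_proj (hX : IsContAction ℚ Qb X) (A : ValuationSubring Qb)
    (hAp : A.LiesOverPrime p)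
    (rep v : X → Fin 3 → Qb) (lam : X → Qb) (hlam : ∀ x, lam x ≠ 0) (hv : ∀ x, v x = lam x • rep x)
    (hrep : ∀ (σ : GQ) x, rep (σ • x) = fun i => σ (rep x i))
    (hsep : ∀ x y (c : Qb), rep x = c • rep y → x = y)
    (hvA : ∀ x i, v x i ∈ A)
    {d : ℕ} (hg0 : ∀ x, form d (v x) ≠ 0) (hg1 : ∀ x, (form d (v x))⁻¹ ∈ A)
    (hd : 0 < d)
    (hadd : ∀ x y : X, ∃ (a : ℕ) (w : Fin 3 → X × X → Qb),
      (∀ i, w i ∈ (Submodule.span A (Set.range fun i (z : X × X) => v z.1 i)) ^ a *
        (Submodule.span A (Set.range fun i (z : X × X) => v z.2 i)) ^ a) ∧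
      (∀ z, ∃ c : Qb, (fun i => w i z) = c • v (z.1 + z.2)) ∧
      ∃ c : Qb, (fun i => w i (x, y)) = c • v (x + y) ∧ c ≠ 0 ∧ c⁻¹ ∈ A)
    (hneg : ∀ y : X, ∃ (a : ℕ) (w : Fin 3 → X → Qb),
      (∀ i, w i ∈ (Submodule.span A (Set.range fun i x => v x i)) ^ a) ∧
      (∀ x, ∃ c : Qb, (fun i => w i x) = c • v (-x)) ∧
      ∃ c : Qb, (fun i => w i y) = c • v (-y) ∧ c ≠ 0 ∧ c⁻¹ ∈ A) :
    IsFlatMod p X := by
  have hA := algebraMap_mem_of_liesOver p A hAp
  have hAm := nonunit_mem A hAp
  have hform_rep : ∀ x, form d (v x) = lam x ^ (3 * d) * form d (rep x) := fun x => by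
    rw [hv, form_smul]
  have hform0 : ∀ x, form d (rep x) ≠ 0 := fun x h => hg0 x (by rw [hform_rep, h, mul_zero])
  -- the generators
  let φ : (Fin (3 * d) → Fin 3) → X → Qb := fun i x => mono i (rep x) / form d (rep x)
  have hφv : ∀ i x, φ i x = mono i (v x) / form d (v x) := by
    intro i x
    change mono i (rep x) / form d (rep x) = _
    rw [hform_rep, hv, mono_smul, mul_div_mul_left _ _ (pow_ne_zero _ (hlam x))]
  have hφA : ∀ i x, φ i x ∈ A := by
    intro i x
    rw [hφv, div_eq_mul_inv]
    refine A.mul_mem _ _ ?_ (hg1 x)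
    exact prod_mem fun j _ => hvA x (i j)
  have hφe : ∀ i (σ : GQ) x, φ i (σ • x) = σ (φ i x) := by
    intro i σ x
    change mono i (rep (σ • x)) / form d (rep (σ • x)) = σ (mono i (rep x) / form d (rep x))
    rw [hrep, map_div₀]
    congr 1
    · exact mono_map i (σ : Qb →+* Qb) (rep x)
    · exact form_map d (σ : Qb →+* Qb) (rep x)
  have hφint : ∀ i, φ i ∈ equivInt (ratLocalizedAt p) ℚ Qb X := fun i =>
    ⟨fun x => isIntegral_of_mem (R := ratLocalizedAt p) A hAm (hφA i) (hφe i) x, hφe i⟩
  let H : Subalgebra (ratLocalizedAt p) (X → Qb) := Algebra.adjoin _ (Set.range φ)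
  have hH : H ≤ equivInt (ratLocalizedAt p) ℚ Qb X := by
    refine Algebra.adjoin_le ?_
    rintro _ ⟨i, rfl⟩
    exact hφint i
  have hmem : ∀ i, φ i ∈ H := fun i => Algebra.subset_adjoin ⟨i, rfl⟩
  have hHA : ∀ f ∈ H, ∀ x, f x ∈ A := fun f hf x => by
    have h1 := (hH hf).1 x
    exact isIntegral_mem A hA h1
  -- the denominators
  let g : X → Qb := fun x => (form d (v x))⁻¹
  let L : Submodule A (X → Qb) := Submodule.span A (Set.range fun i x => v x i)
  have hgen : ∀ f ∈ L ^ (3 * d), f * g ∈ loc A H := by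
    intro f hf
    refine pow_span_le (M := Subalgebra.toSubmodule (loc A H)) (fun i => ?_) hf
    have h1 : mono i (fun i x => v x i) * g = φ i := by
      funext x
      rw [Pi.mul_apply, hφv, div_eq_mul_inv]
      congr 1
      exact (mono_map i (Pi.evalRingHom (fun _ : X => Qb) x) (fun i x => v x i)).symm
    rw [h1]
    exact mem_loc A (hmem i)
  have hgena : ∀ a : ℕ, ∀ f ∈ (L ^ a) ^ (3 * d), f * g ^ a ∈ loc A H := by
    intro a
    induction a with
    | zero =>
      intro f hf
      rw [pow_zero, one_pow, Submodule.mem_one] at hf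
      obtain ⟨c, rfl⟩ := hf
      rw [pow_zero, mul_one]
      exact (loc A H).algebraMap_mem c
    | succ a ih =>
      intro f hf
      rw [pow_succ, mul_pow] at hf
      induction hf using Submodule.mul_induction_on' with
      | mem_mul_mem x hx y hy =>
        have h1 : x * y * g ^ (a + 1) = (x * g ^ a) * (y * g) := by ring
        rw [h1]
        exact (loc A H).mul_mem (ih x hx) (hgen y hy)
      | add x _ y _ hx hy =>
        rw [add_mul]
        exact (loc A H).add_mem hx hy
  have hgina : ∀ a : ℕ, ∀ x, (g ^ a) x ≠ 0 ∧ ((g ^ a) x)⁻¹ ∈ A := by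
    intro a x
    have h1 : g x ≠ 0 := inv_ne_zero (hg0 x)
    have h2 : form d (v x) ∈ A := by
      unfold form
      have h3 : ∀ i, v x i ^ d ∈ A := fun i => pow_mem (hvA x i) d
      exact add_mem (sub_mem (sub_mem (sub_mem (add_mem (add_mem (pow_mem (h3 0) 3)
        (pow_mem (h3 1) 3)) (pow_mem (h3 2) 3)) (mul_mem (h3 0) (pow_mem (h3 1) 2)))
        (mul_mem (h3 1) (pow_mem (h3 2) 2))) (mul_mem (h3 0) (pow_mem (h3 2) 2)))
        (mul_mem (mul_mem (h3 0) (h3 1)) (h3 2))
    rw [Pi.pow_apply]
    refine ⟨pow_ne_zero _ h1, ?_⟩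
    rw [← inv_pow]
    refine pow_mem ?_ a
    change ((form d (v x))⁻¹)⁻¹ ∈ A
    rw [inv_inv]
    exact h2
  have hne : ∀ i, (3 * d) ≠ 0 := fun _ : Unit => by omega
  refine ⟨H, ?_, fun h hh σ x => (hH hh).2 σ x⟩
  refine { finite := ?_, indep := ?_, separates := ?_, comul := ?_, counit := ?_, antipode := ?_ }
  · have h1 := fg_adjoin_of_finite (R := ratLocalizedAt p) (Set.finite_range φ) (by
      rintro _ ⟨i, rfl⟩
      exact isIntegral_pi (hφint i).1)
    exact Module.Finite.iff_fg.2 h1
  · intro m u hu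
    exact indep_of_equivariant (K := ℚ) m _ (fun h hh => (hH hh).2) u hu
  · intro x y hxy
    by_contra hcon
    push Not at hcon
    apply hxy
    have h1 : ∀ i, φ i x = φ i y := fun i => hcon _ (hmem i)
    -- a nonzero coordinate
    obtain ⟨j, hj⟩ : ∃ j, rep x j ≠ 0 := by
      by_contra hall
      push Not at hall
      apply hform0 x
      have h2 : rep x = (0 : Qb) • rep x := by
        funext j
        rw [hall j]
        simp [hall j]
      rw [h2, form_smul, zero_pow (by omega), zero_mul]
    obtain ⟨e, he⟩ : ∃ e, 3 * d = e + 1 := ⟨3 * d - 1, by omega⟩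
    have h3 : ∀ k, rep x j ^ e * rep x k / form d (rep x) =
        rep y j ^ e * rep y k / form d (rep y) := by
      intro k
      have h4 := h1 (fun t => if (t : ℕ) = 0 then k else j)
      have h5 : ∀ u : Fin 3 → Qb, mono (fun t : Fin (3 * d) => if (t : ℕ) = 0 then k else j) u =
          u j ^ e * u k := by
        intro u
        unfold mono
        have h6 : ∏ t : Fin (3 * d), u (if (t : ℕ) = 0 then k else j) =
            ∏ t : Fin (e + 1), u (if (t : ℕ) = 0 then k else j) := by
          rw [← Fin.prod_congr' (fun t : Fin (3 * d) => u (if (t : ℕ) = 0 then k else j)) he.symm]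
          rfl
        rw [h6, Fin.prod_univ_succ]
        simp [mul_comm]
      change mono _ (rep x) / form d (rep x) = mono _ (rep y) / form d (rep y) at h4
      rw [h5, h5] at h4
      exact h4
    have h6 : rep y j ≠ 0 := by
      intro h7
      have h8 := h3 j
      rw [h7, mul_zero, zero_div, div_eq_zero_iff] at h8
      rcases h8 with h8 | h8
      · exact mul_ne_zero (pow_ne_zero _ hj) hj h8
      · exact hform0 x h8
    refine hsep x y (rep x j / rep y j) ?_
    funext k
    have h7 := h3 k
    have h8 := h3 j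
    rw [div_eq_div_iff (hform0 x) (hform0 y)] at h7 h8
    have h9 : rep x j ^ e * (rep x k * rep y j - rep x j * rep y k) * (form d (rep y) *
        (rep y j ^ e)) = 0 := by
      have e1 : rep x j ^ e * rep x k * form d (rep y) * (rep y j ^ e * rep y j) =
          rep y j ^ e * rep y k * form d (rep x) * (rep y j ^ e * rep y j) := by rw [h7]
      have e2 : rep x j ^ e * rep x j * form d (rep y) * (rep y j ^ e * rep y k) =
          rep y j ^ e * rep y j * form d (rep x) * (rep y j ^ e * rep y k) := by rw [h8]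
      linear_combination e1 - e2
    have h10 : rep x k * rep y j - rep x j * rep y k = 0 := by
      rcases mul_eq_zero.1 h9 with h10 | h10
      · rcases mul_eq_zero.1 h10 with h11 | h11
        · exact absurd h11 (pow_ne_zero _ hj)
        · exact h11
      · exact absurd h10 (mul_ne_zero (hform0 y) (pow_ne_zero _ h6))
    rw [Pi.smul_apply, smul_eq_mul, div_mul_eq_mul_div, eq_div_iff h6]
    exact sub_eq_zero.1 h10
  · refine comul_mem_of_adjoin (Set.range φ) ?_
    rintro _ ⟨i, rfl⟩
    change (fun z : X × X => φ i (z.1 + z.2)) ∈ tensorAlg H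
    have hB : tensorAlg H ≤ equivInt (ratLocalizedAt p) ℚ Qb (X × X) := by
      intro f hf
      change f ∈ Subalgebra.toSubmodule (equivInt (ratLocalizedAt p) ℚ Qb (X × X))
      refine Submodule.span_le.2 ?_ hf
      rintro _ ⟨a, ha, b, hb, rfl⟩
      refine ⟨fun z => ((hH ha).1 z.1).mul ((hH hb).1 z.2), fun σ z => ?_⟩
      change a (σ • z.1) * b (σ • z.2) = σ (a z.1 * b z.2)
      rw [(hH ha).2, (hH hb).2, map_mul]
    refine mem_of_mem_loc A hA hAm (isContAction_prod hX) hB ?_ ?_
    · intro σ z
      change φ i (σ • z.1 + σ • z.2) = σ (φ i (z.1 + z.2))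
      rw [← smul_add, hφe]
    · refine mem_loc_of_local A (fun f hf z => isIntegral_mem A hA ((hB hf).1 z)) fun z₀ => ?_
      obtain ⟨a, w, hw, hc, c₀, h0, hc0, hc1⟩ := hadd z₀.1 z₀.2
      have h1 := local_cond (d := d) A (tensorAlg H) (Submodule.span A
        (Set.range fun i (z : X × X) => v z.1 i) ^ a * Submodule.span A
          (Set.range fun i (z : X × X) => v z.2 i) ^ a)
        (fun z => (g ^ a) z.1 * (g ^ a) z.2) ?_ (fun z => mul_ne_zero (hgina a _).1 (hgina a _).1)
        (fun z => by rw [mul_inv]; exact A.mul_mem _ _ (hgina a _).2 (hgina a _).2)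
        v hg0 hg1 (fun z => z.1 + z.2) w hw hc z₀ h0 hc0 hc1 i
      · simp only [hφv]
        exact h1
      · intro f hf
        rw [mul_pow] at hf
        have hL1 : Submodule.span A (Set.range fun i (z : X × X) => v z.1 i) =
            L.map (pull A Qb (Prod.fst : X × X → X)).toLinearMap := by
          rw [Submodule.map_span, ← Set.range_comp]
          rfl
        have hL2 : Submodule.span A (Set.range fun i (z : X × X) => v z.2 i) =
            L.map (pull A Qb (Prod.snd : X × X → X)).toLinearMap := by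
          rw [Submodule.map_span, ← Set.range_comp]
          rfl
        rw [hL1, hL2, ← Submodule.map_pow, ← Submodule.map_pow, ← Submodule.map_pow,
          ← Submodule.map_pow] at hf
        induction hf using Submodule.mul_induction_on' with
        | mem_mul_mem x hx y hy =>
          obtain ⟨x, hx, rfl⟩ := hx
          obtain ⟨y, hy, rfl⟩ := hy
          have h2 : (pull A Qb (Prod.fst : X × X → X)).toLinearMap x *
              (pull A Qb (Prod.snd : X × X → X)).toLinearMap y *
              (fun z => (g ^ a) z.1 * (g ^ a) z.2) =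
              (fun z : X × X => (x * g ^ a) z.1) * (fun z : X × X => (y * g ^ a) z.2) := by
            funext z
            simp only [Pi.mul_apply, AlgHom.toLinearMap_apply, pull_apply]
            ring
          rw [h2]
          exact (loc A (tensorAlg H)).mul_mem (loc_fst A H (hgena a x hx))
            (loc_snd A H (hgena a y hy))
        | add x _ y _ hx hy =>
          rw [add_mul]
          exact (loc A (tensorAlg H)).add_mem hx hy
  · intro h hh
    obtain ⟨r, hr⟩ := mem_range_of_fixed (K := ℚ) (ratLocalizedAt p) ((hH hh).1 0) fun σ => by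
      rw [← (hH hh).2, smul_zero]
    exact ⟨r, hr.symm⟩
  · intro h hh
    have hle : H ≤ H.comap (pull (ratLocalizedAt p) Qb fun x : X => -x) := by
      refine Algebra.adjoin_le ?_
      rintro _ ⟨i, rfl⟩
      change (fun x => φ i (-x)) ∈ H
      refine mem_of_mem_loc A hA hAm hX hH ?_ ?_
      · intro σ z
        change φ i (-(σ • z)) = σ (φ i (-z))
        rw [← smul_neg, hφe]
      · refine mem_loc_of_local A hHA fun z₀ => ?_
        obtain ⟨a, w, hw, hc, c₀, h0, hc0, hc1⟩ := hneg z₀
        have h1 := local_cond (d := d) A H (L ^ a) (g ^ a) (hgena a) (fun z => (hgina a z).1)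
          (fun z => (hgina a z).2) v hg0 hg1 (fun z => -z) w hw hc z₀ h0 hc0 hc1 i
        simp only [hφv]
        exact h1
    exact hle hh

end Main

end Fermat.Agent.EFlat
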