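import Fermat.Agent.EFlat.Main
import Fermat.Agent.FlatJ.Assembly
import Fermat.Agent.ERep.Main

/-!
**The torsion of an elliptic curve is finite flat at the primes of good reduction.**
-/

set_option autoImplicit false
set_option linter.unusedSectionVars false

open WeierstrassCurve WeierstrassCurve.Affine WeierstrassCurve.Affine.Point

namespace Fermat.Agent.EFlat

open Fermat.Agent.HopfOrder GaloisRep

local notation "Qb" => AlgebraicClosure ℚ

variable (W : WeierstrassCurve ℤ) {p : ℕ} [hp : Fact p.Prime]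

theorem Δ_ne_zero' (hpΔ : ¬ (p : ℤ) ∣ W.Δ) : (W.map (Int.castRingHom ℚ)).Δ ≠ 0 := by
  rw [WeierstrassCurve.map_Δ]
  intro h
  apply hpΔ
  rw [(Int.cast_eq_zero (α := ℚ)).1 h]
  exact dvd_zero _

theorem model_eq (A : ValuationSubring Qb) :
    (W.map (Int.castRingHom A)).map (algebraMap A Qb) = (W.map (Int.castRingHom ℚ))⁄Qb := by
  rw [WeierstrassCurve.map_map]
  refine Eq.trans ?_ (WeierstrassCurve.map_map W (Int.castRingHom ℚ) (algebraMap ℚ Qb)).symm
  congr 1

theorem isContAction_torsion (E : WeierstrassCurve ℚ) [E.IsElliptic] {n : ℕ} (hn : 0 < n) :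
    IsContAction ℚ Qb (Submodule.torsionBy ℤ (E⁄Qb).Point (n : ℤ)) := by
  have h1 := ERep.card_torsionE E hn
  have h2 : Finite {P : (E⁄Qb).Point // n • P = 0} :=
    Nat.finite_of_card_ne_zero (by rw [h1]; exact (pow_pos hn 2).ne')
  obtain ⟨L, hL, h⟩ := ERep.exists_level E (S := {P : (E⁄Qb).Point | n • P = 0})
    (Set.finite_coe_iff.1 h2)
  refine ⟨L, hL, fun σ hσ P => Subtype.ext (h σ hσ _ ?_)⟩
  have h3 := (Submodule.mem_torsionBy_iff (R := ℤ) (n : ℤ) (P : (E⁄Qb).Point)).1 P.2
  rw [natCast_zsmul] at h3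
  exact h3

theorem finite_torsion (E : WeierstrassCurve ℚ) [E.IsElliptic] {n : ℕ} (hn : 0 < n) :
    Finite (Submodule.torsionBy ℤ (E⁄Qb).Point (n : ℤ)) := by
  have h1 := ERep.card_torsionE E hn
  have h2 : Finite {P : (E⁄Qb).Point // n • P = 0} :=
    Nat.finite_of_card_ne_zero (by rw [h1]; exact (pow_pos hn 2).ne')
  refine Finite.of_equiv {P : (E⁄Qb).Point // n • P = 0} (Equiv.subtypeEquivRight fun x => ?_)
  rw [← natCast_zsmul]
  exact (Submodule.mem_torsionBy_iff (R := ℤ) (n : ℤ) x).symm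

/-- **The torsion of an elliptic curve is finite flat at the primes of good reduction.** -/
theorem isFlatMod_torsion (hpΔ : ¬ (p : ℤ) ∣ W.Δ) {n : ℕ} (hn : 0 < n) :
    IsFlatMod p (Submodule.torsionBy ℤ ((W.map (Int.castRingHom ℚ))⁄Qb).Point (n : ℤ)) := by
  have hell : (W.map (Int.castRingHom ℚ)).IsElliptic :=
    ⟨(isUnit_iff_ne_zero.2 (Δ_ne_zero' W hpΔ))⟩
  obtain ⟨A, hA⟩ := Fermat.Agent.Frob.exists_liesOverPrime Qb hp.out
  have hcp : CharP (IsLocalRing.ResidueField A) p := FrobE.charP_residue hp.out hA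
  let alg : Algebra (ZMod p) (IsLocalRing.ResidueField A) := ZMod.algebra _ p
  have halg : Algebra.IsAlgebraic (ZMod p) (IsLocalRing.ResidueField A) :=
    FrobE.algebraic_residue hp.out hA
  have hac : IsAlgClosed (IsLocalRing.ResidueField A) := FlatJ.isAlgClosed_residueField A
  have hinf : Infinite (IsLocalRing.ResidueField A) := IsAlgClosed.instInfinite
  have hfin := finite_torsion (W.map (Int.castRingHom ℚ)) hn
  refine isFlatMod_of_embedding hA (fun a => FlatJ.exists_pow_eq p a)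
    (IsLocalRing.residue A) IsLocalRing.residue_surjective (W.map (Int.castRingHom A)) ?_
    (model_eq W A) (isContAction_torsion _ hn) inferInstance
    (Submodule.torsionBy ℤ ((W.map (Int.castRingHom ℚ))⁄Qb).Point (n : ℤ)).subtype.toAddMonoidHom
    Subtype.val_injective ?_
  · rw [WeierstrassCurve.map_Δ, WeierstrassCurve.map_Δ]
    intro h
    apply hpΔ
    rw [← CharP.intCast_eq_zero_iff (IsLocalRing.ResidueField A) p, ← h]
    simp
  · rintro σ ⟨P, hP⟩
    rcases P with _ | ⟨x, y, h⟩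
    · funext i
      change (![0, 1, 0] : Fin 3 → Qb) i = σ ((![0, 1, 0] : Fin 3 → Qb) i)
      fin_cases i <;> simp
    · funext i
      change (![σ x, σ y, 1] : Fin 3 → Qb) i = σ ((![x, y, 1] : Fin 3 → Qb) i)
      fin_cases i <;> simp

end Fermat.Agent.EFlat
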