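import Fermat.Agent.EFlat.Order

/-!
Functions given by ratios of homogeneous forms.
-/

set_option autoImplicit false
set_option linter.unusedSectionVars false

namespace Fermat.Agent.EFlat

open Fermat.Agent.HopfOrder

section Form

variable {F F' : Type*} [CommRing F] [CommRing F']

/-- A form of degree `3 * d` taking the value one at the nonzero vectors whose coordinates satisfy
`x ^ (d + 1) = x`. -/
def form (d : ℕ) (v : Fin 3 → F) : F :=
  (v 0 ^ d) ^ 3 + (v 1 ^ d) ^ 3 + (v 2 ^ d) ^ 3 - v 0 ^ d * (v 1 ^ d) ^ 2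
    - v 1 ^ d * (v 2 ^ d) ^ 2 - v 0 ^ d * (v 2 ^ d) ^ 2 + v 0 ^ d * v 1 ^ d * v 2 ^ d

/-- monomials -/
def mono {D : ℕ} (i : Fin D → Fin 3) (v : Fin 3 → F) : F := ∏ j, v (i j)

theorem form_smul (d : ℕ) (c : F) (v : Fin 3 → F) :
    form d (c • v) = c ^ (3 * d) * form d v := by
  unfold form
  simp only [Pi.smul_apply, smul_eq_mul, mul_pow, pow_mul']
  ring

theorem form_map (d : ℕ) (f : F →+* F') (v : Fin 3 → F) : form d (f ∘ v) = f (form d v) := by
  unfold form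
  simp only [Function.comp_apply, map_add, map_sub, map_mul, map_pow]

theorem mono_smul {D : ℕ} (i : Fin D → Fin 3) (c : F) (v : Fin 3 → F) :
    mono i (c • v) = c ^ D * mono i v := by
  unfold mono
  simp only [Pi.smul_apply, smul_eq_mul, Finset.prod_mul_distrib, Finset.prod_const,
    Finset.card_univ, Fintype.card_fin]

theorem mono_map {D : ℕ} (i : Fin D → Fin 3) (f : F →+* F') (v : Fin 3 → F) :
    mono i (f ∘ v) = f (mono i v) := by
  unfold mono
  simp only [Function.comp_apply, map_prod]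

theorem form_eq_one {d : ℕ} {v : Fin 3 → F}
    (h : ∀ i, v i ^ d = 0 ∨ v i ^ d = 1) (h1 : ∃ i, v i ^ d = 1) : form d v = 1 := by
  unfold form
  obtain ⟨i, hi⟩ := h1
  rcases h 0 with h0 | h0 <;> rcases h 1 with h1 | h1 <;> rcases h 2 with h2 | h2 <;>
    fin_cases i <;> simp_all

variable {A 𝓕 : Type*} [CommRing A] [CommRing 𝓕] [Algebra A 𝓕] {N : Submodule A 𝓕}

theorem mono_mem {D : ℕ} (i : Fin D → Fin 3) {u : Fin 3 → 𝓕} (hu : ∀ i, u i ∈ N) :
    mono i u ∈ N ^ D := by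
  induction D with
  | zero =>
    unfold mono
    rw [Finset.univ_eq_empty, Finset.prod_empty, pow_zero]
    exact Submodule.one_le.1 le_rfl
  | succ D ih =>
    unfold mono
    rw [Fin.prod_univ_succ, pow_succ']
    exact Submodule.mul_mem_mul (hu _) (ih (fun j => i j.succ))

theorem form_mem (d : ℕ) {u : Fin 3 → 𝓕} (hu : ∀ i, u i ∈ N) : form d u ∈ N ^ (3 * d) := by
  have h1 : ∀ i, u i ^ d ∈ N ^ d := fun i => Submodule.pow_mem_pow N (hu i) d
  have h3 : N ^ (3 * d) = N ^ d * N ^ d * N ^ d := by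
    rw [← pow_add, ← pow_add]
    congr 1
    ring
  have h4 : ∀ i j k, u i ^ d * u j ^ d * u k ^ d ∈ N ^ (3 * d) := by
    intro i j k
    rw [h3]
    exact Submodule.mul_mem_mul (Submodule.mul_mem_mul (h1 i) (h1 j)) (h1 k)
  have h5 : form d u = u 0 ^ d * u 0 ^ d * u 0 ^ d + u 1 ^ d * u 1 ^ d * u 1 ^ d
      + u 2 ^ d * u 2 ^ d * u 2 ^ d - u 0 ^ d * u 1 ^ d * u 1 ^ d
      - u 1 ^ d * u 2 ^ d * u 2 ^ d - u 0 ^ d * u 2 ^ d * u 2 ^ d
      + u 0 ^ d * u 1 ^ d * u 2 ^ d := by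
    unfold form
    ring
  rw [h5]
  exact Submodule.add_mem _ (Submodule.sub_mem _ (Submodule.sub_mem _ (Submodule.sub_mem _
    (Submodule.add_mem _ (Submodule.add_mem _ (h4 _ _ _) (h4 _ _ _)) (h4 _ _ _)) (h4 _ _ _))
    (h4 _ _ _)) (h4 _ _ _)) (h4 _ _ _)

/-- Powers of a submodule generated by three elements. -/
theorem pow_span_le {D : ℕ} {u : Fin 3 → 𝓕} {e : 𝓕} {M : Submodule A 𝓕}
    (h : ∀ i : Fin D → Fin 3, mono i u * e ∈ M) {f : 𝓕}
    (hf : f ∈ (Submodule.span A (Set.range u)) ^ D) : f * e ∈ M := by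
  rw [Submodule.span_pow] at hf
  induction hf using Submodule.span_induction with
  | mem f hf =>
    obtain ⟨g, rfl⟩ := Set.mem_pow.1 hf
    have h1 : ∀ j, ∃ i, u i = g j := fun j => (g j).2
    choose i hi using h1
    rw [List.prod_ofFn]
    have h2 : ∏ j, (g j : 𝓕) = mono i u := by
      unfold mono
      exact Finset.prod_congr rfl fun j _ => (hi j).symm
    rw [h2]
    exact h i
  | zero => rw [zero_mul]; exact M.zero_mem
  | add x y _ _ hx hy => rw [add_mul]; exact M.add_mem hx hy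
  | smul c x _ hx => rw [smul_mul_assoc]; exact M.smul_mem _ hx

end Form

section Crit

variable {R Ω : Type} [CommRing R] [Field Ω] [Algebra R Ω] (A : ValuationSubring Ω)

theorem local_cond {X Z : Type} {d : ℕ} (B : Subalgebra R (Z → Ω)) (N : Submodule A (Z → Ω))
    (e : Z → Ω) (he : ∀ f ∈ N ^ (3 * d), f * e ∈ loc A B)
    (he0 : ∀ z, e z ≠ 0) (he1 : ∀ z, (e z)⁻¹ ∈ A) (v : X → Fin 3 → Ω)
    (hg0 : ∀ x, form d (v x) ≠ 0) (hg1 : ∀ x, (form d (v x))⁻¹ ∈ A) (ν : Z → X)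
    (w : Fin 3 → Z → Ω) (hw : ∀ i, w i ∈ N)
    (hc : ∀ z, ∃ c : Ω, (fun i => w i z) = c • v (ν z)) (z₀ : Z) {c₀ : Ω}
    (h0 : (fun i => w i z₀) = c₀ • v (ν z₀)) (hc0 : c₀ ≠ 0) (hc1 : c₀⁻¹ ∈ A)
    (i : Fin (3 * d) → Fin 3) :
    ∃ g ∈ loc A B, g z₀ ≠ 0 ∧ (g z₀)⁻¹ ∈ A ∧
      g * (fun z => mono i (v (ν z)) / form d (v (ν z))) ∈ loc A B := by
  have hform : ∀ z, (form d w) z = form d (fun i => w i z) := fun z =>
    (form_map d (Pi.evalRingHom (fun _ : Z => Ω) z) w).symm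
  have hmono : ∀ z, (mono i w) z = mono i (fun i => w i z) := fun z =>
    (mono_map i (Pi.evalRingHom (fun _ : Z => Ω) z) w).symm
  refine ⟨form d w * e, he _ (form_mem d hw), ?_, ?_, ?_⟩
  · rw [Pi.mul_apply, hform, h0, form_smul]
    exact mul_ne_zero (mul_ne_zero (pow_ne_zero _ hc0) (hg0 _)) (he0 _)
  · rw [Pi.mul_apply, hform, h0, form_smul, mul_inv, mul_inv, ← inv_pow]
    exact A.mul_mem _ _ (A.mul_mem _ _ (pow_mem hc1 _) (hg1 _)) (he1 _)
  · have h1 : form d w * e * (fun z => mono i (v (ν z)) / form d (v (ν z))) = mono i w * e := by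
      funext z
      obtain ⟨c, hcz⟩ := hc z
      simp only [Pi.mul_apply]
      rw [hform, hmono, hcz, form_smul, mono_smul]
      field_simp [hg0 (ν z)]
    rw [h1]
    exact he _ (mono_mem i hw)

end Crit

end Fermat.Agent.EFlat
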