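import Fermat.Agent.EFlat.Red
import Fermat.Agent.EFlat.Crit

/-!
Flatness of finite Galois modules embedded in an elliptic curve with good reduction.
-/

set_option autoImplicit false
set_option linter.unusedSectionVars false

open WeierstrassCurve WeierstrassCurve.Projective

namespace Fermat.Agent.EFlat

open Fermat.Agent.HopfOrder GaloisRep

local notation "Qb" => AlgebraicClosure ℚ

section Law

variable {Ω : Type} [Field Ω] [DecidableEq Ω] {A : ValuationSubring Ω} {k : Type} [Field k]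
  [DecidableEq k] (π : A →+* k) [hloc : IsLocalHom π] (W : WeierstrassCurve A)
  {X : Type} [AddCommGroup X] (ι : X →+ (W.map (algebraMap A Ω)).toAffine.Point)
  (v : X → Fin 3 → A) (vb : X → (W.map π).toAffine.Point)
  (hv : ∀ x, RedRep π W (ι x) (vb x) (v x))

/-- the coordinate functions -/
abbrev cf {Z : Type} (u : Z → Fin 3 → A) : Fin 3 → Z → Ω := fun i z => (u z i : Ω)

theorem addXYZ_eval {Z : Type} (u u' : Fin 3 → Z → Ω) (z : Z) :
    (fun i => (W.map (algebraMap A (Z → Ω))).toProjective.addXYZ u u' i z) =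
      (W.map (algebraMap A Ω)).toProjective.addXYZ (fun i => u i z) (fun i => u' i z) := by
  have h := map_addXYZ (W' := W.map (algebraMap A (Z → Ω))) (Pi.evalRingHom (fun _ : Z => Ω) z) u u'
  exact h.symm

theorem neg_eval {Z : Type} (u : Fin 3 → Z → Ω) (z : Z) :
    (fun i => (W.map (algebraMap A (Z → Ω))).toProjective.neg u i z) =
      (W.map (algebraMap A Ω)).toProjective.neg (fun i => u i z) := by
  have h := Projective.map_neg (W' := W.map (algebraMap A (Z → Ω)))
    (Pi.evalRingHom (fun _ : Z => Ω) z) u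
  exact h.symm

include hv in
theorem exists_unit_smul {P : (W.map (algebraMap A Ω)).toAffine.Point}
    {Pb : (W.map π).toAffine.Point} {w : Fin 3 → A} (hw : RedRep π W P Pb w) {x : X}
    (hx : ι x = P) : ∃ c : Ω, (fun i => (w i : Ω)) = c • (fun i => (v x i : Ω)) ∧ c ≠ 0 ∧
      c⁻¹ ∈ A := by
  subst hx
  obtain ⟨c, hc⟩ := hw.1.zrep.exists_smul (hv x).1
  obtain ⟨i, hi⟩ := hw.isUnit
  obtain ⟨u, hu⟩ := hi
  have h1 : ((w i : A) : Ω) = c * (v x i : Ω) := congrFun hc i
  have h2 : ((w i : A) : Ω) * ((↑u⁻¹ : A) : Ω) = 1 := by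
    rw [← hu]
    exact congrArg (fun z : A => (z : Ω)) (Units.mul_inv u)
  have h3 : c * ((v x i : Ω) * ((↑u⁻¹ : A) : Ω)) = 1 := by
    rw [← mul_assoc, ← h1, h2]
  have hc0 : c ≠ 0 := left_ne_zero_of_mul_eq_one h3
  refine ⟨c, hc, hc0, ?_⟩
  rw [inv_eq_of_mul_eq_one_right h3]
  exact A.mul_mem _ _ (v x i).2 (Subtype.property _)

include hv in
theorem exists_law [IsAlgClosed Ω] [Infinite k] (hπ : Function.Surjective π)
    (hΔ : (W.map π).Δ ≠ 0) (x y : X) :
    ∃ (a : ℕ) (w : Fin 3 → X × X → Ω),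
      (∀ i, w i ∈ (Submodule.span A (Set.range fun i (z : X × X) => (v z.1 i : Ω))) ^ a *
        (Submodule.span A (Set.range fun i (z : X × X) => (v z.2 i : Ω))) ^ a) ∧
      (∀ z, ∃ c : Ω, (fun i => w i z) = c • (fun i => (v (z.1 + z.2) i : Ω))) ∧
      ∃ c : Ω, (fun i => w i (x, y)) = c • (fun i => (v (x + y) i : Ω)) ∧ c ≠ 0 ∧ c⁻¹ ∈ A := by
  have hr : ∀ x, IsRep (W.map (algebraMap A Ω)) (ι x) (fun i => (v x i : Ω)) := fun x => (hv x).1
  by_cases hxy : vb x = vb y
  · -- the points are congruent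
    obtain ⟨T, Tb, t, ht, h1, h2, h3⟩ := exists_aux (W := W) hπ hΔ (vb x) (-(vb y))
    let u₁ : Fin 3 → X × X → Ω := fun i z => (v z.1 i : Ω)
    let u₂ : Fin 3 → X × X → Ω := fun i z => (v z.2 i : Ω)
    let t₁ : Fin 3 → X × X → Ω := fun i _ => (t i : Ω)
    let t₂ : Fin 3 → X × X → Ω := fun i _ => (W.toProjective.neg t i : Ω)
    let w₁ := (W.map (algebraMap A (X × X → Ω))).toProjective.addXYZ u₁ t₁
    let w₂ := (W.map (algebraMap A (X × X → Ω))).toProjective.addXYZ u₂ t₂
    have hconst : ∀ c : A, (fun _ : X × X => (c : Ω)) ∈ (1 : Submodule A (X × X → Ω)) := fun c =>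
      Submodule.mem_one.2 ⟨c, rfl⟩
    have hw₁ : ∀ i, w₁ i ∈ (Submodule.span A (Set.range u₁)) ^ 2 := by
      intro i
      have h4 := addXYZ_mem W (N₁ := Submodule.span A (Set.range u₁)) (N₂ := 1) (u := u₁) (v := t₁)
        (fun i => Submodule.subset_span ⟨i, rfl⟩) (fun i => hconst _) i
      rw [one_pow, mul_one] at h4
      exact h4
    have hw₂ : ∀ i, w₂ i ∈ (Submodule.span A (Set.range u₂)) ^ 2 := by
      intro i
      have h4 := addXYZ_mem W (N₁ := Submodule.span A (Set.range u₂)) (N₂ := 1) (u := u₂) (v := t₂)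
        (fun i => Submodule.subset_span ⟨i, rfl⟩) (fun i => hconst _) i
      rw [one_pow, mul_one] at h4
      exact h4
    have htn := ht.neg
    refine ⟨4, (W.map (algebraMap A (X × X → Ω))).toProjective.addXYZ w₁ w₂, ?_, ?_, ?_⟩
    · intro i
      have h4 := addXYZ_mem W hw₁ hw₂ i
      rw [← pow_mul, ← pow_mul] at h4
      exact h4
    · intro z
      rw [addXYZ_eval, addXYZ_eval, addXYZ_eval]
      have h4 : ZRep (W.map (algebraMap A Ω)) (ι z.1 + T)
          ((W.map (algebraMap A Ω)).toProjective.addXYZ (fun i => u₁ i z) (fun i => t₁ i z)) :=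
        ((hr z.1)).zrep.add ht.1.zrep
      have h5 : ZRep (W.map (algebraMap A Ω)) (ι z.2 + -T)
          ((W.map (algebraMap A Ω)).toProjective.addXYZ (fun i => u₂ i z) (fun i => t₂ i z)) :=
        ((hr z.2)).zrep.add htn.1.zrep
      have h6 := h4.add h5
      have h7 : ι z.1 + T + (ι z.2 + -T) = ι (z.1 + z.2) := by
        rw [map_add]; abel
      rw [h7] at h6
      exact h6.exists_smul (hr _)
    · rw [addXYZ_eval, addXYZ_eval, addXYZ_eval]
      have h4 := (hv x).add ht h1.symm
      have h5 := (hv y).add htn (fun h => h2 (by rw [h, neg_neg]))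
      have h6 := h4.add h5 (by
        rw [hxy]
        intro h
        exact h3 (add_left_cancel h))
      obtain ⟨c, hc⟩ := exists_unit_smul π W ι v vb hv h6 (x := x + y) (by rw [map_add]; abel)
      refine ⟨c, ?_, hc.2⟩
      rw [← hc.1]
      have e1 := map_addXYZ (W' := W) (algebraMap A Ω) (W.toProjective.addXYZ (v x) t)
        (W.toProjective.addXYZ (v y) (W.toProjective.neg t))
      have e2 := map_addXYZ (W' := W) (algebraMap A Ω) (v x) t
      have e3 := map_addXYZ (W' := W) (algebraMap A Ω) (v y) (W.toProjective.neg t)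
      rw [← e2, ← e3] at e1
      exact e1
  · let u₁ : Fin 3 → X × X → Ω := fun i z => (v z.1 i : Ω)
    let u₂ : Fin 3 → X × X → Ω := fun i z => (v z.2 i : Ω)
    refine ⟨2, (W.map (algebraMap A (X × X → Ω))).toProjective.addXYZ u₁ u₂, ?_, ?_, ?_⟩
    · exact addXYZ_mem W (fun i => Submodule.subset_span ⟨i, rfl⟩)
        (fun i => Submodule.subset_span ⟨i, rfl⟩)
    · intro z
      rw [addXYZ_eval]
      have h6 : ZRep (W.map (algebraMap A Ω)) (ι z.1 + ι z.2)
          ((W.map (algebraMap A Ω)).toProjective.addXYZ (fun i => u₁ i z) (fun i => u₂ i z)) :=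
        ((hr z.1)).zrep.add (hr z.2).zrep
      rw [← map_add] at h6
      exact h6.exists_smul (hr _)
    · rw [addXYZ_eval]
      have h6 := (hv x).add (hv y) hxy
      obtain ⟨c, hc⟩ := exists_unit_smul π W ι v vb hv h6 (x := x + y) (map_add ι x y)
      refine ⟨c, ?_, hc.2⟩
      rw [← hc.1]
      exact map_addXYZ (W' := W) (algebraMap A Ω) (v x) (v y)

include hv in
theorem exists_neg_law (y : X) :
    ∃ (a : ℕ) (w : Fin 3 → X → Ω),
      (∀ i, w i ∈ (Submodule.span A (Set.range fun i x => (v x i : Ω))) ^ a) ∧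
      (∀ x, ∃ c : Ω, (fun i => w i x) = c • (fun i => (v (-x) i : Ω))) ∧
      ∃ c : Ω, (fun i => w i y) = c • (fun i => (v (-y) i : Ω)) ∧ c ≠ 0 ∧ c⁻¹ ∈ A := by
  let u : Fin 3 → X → Ω := fun i x => (v x i : Ω)
  refine ⟨1, (W.map (algebraMap A (X → Ω))).toProjective.neg u, ?_, ?_, ?_⟩
  · intro i
    rw [pow_one]
    exact EFlat.neg_mem W (N₁ := Submodule.span A (Set.range fun i x => (v x i : Ω))) (u := u)
      (fun i => Submodule.subset_span ⟨i, rfl⟩) i
  · intro z
    rw [neg_eval]
    have h6 := (hv z).neg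
    obtain ⟨c, hc⟩ := exists_unit_smul π W ι v vb hv h6 (x := -z) (map_neg ι z)
    refine ⟨c, ?_⟩
    rw [← hc.1]
    exact Projective.map_neg (W' := W) (algebraMap A Ω) (v z)
  · rw [neg_eval]
    have h6 := (hv y).neg
    obtain ⟨c, hc⟩ := exists_unit_smul π W ι v vb hv h6 (x := -y) (map_neg ι y)
    refine ⟨c, ?_, hc.2⟩
    rw [← hc.1]
    exact Projective.map_neg (W' := W) (algebraMap A Ω) (v y)

end Law

section Common

/-- a common exponent -/
theorem exists_common_pow {k : Type} [Field k] {p : ℕ} (hfin : ∀ a : k, ∃ s, 0 < s ∧ a ^ (p ^ s) = a)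
    (S : Finset k) : ∃ s, 0 < s ∧ ∀ a ∈ S, a ^ (p ^ s) = a := by
  classical
  have hmul : ∀ (a : k) (s t : ℕ), a ^ (p ^ s) = a → a ^ (p ^ (s * t)) = a := by
    intro a s t h
    induction t with
    | zero => rw [mul_zero, pow_zero, pow_one]
    | succ t ih => rw [mul_add, mul_one, pow_add, pow_mul, ih, h]
  induction S using Finset.induction_on with
  | empty => exact ⟨1, one_pos, fun a ha => absurd ha (Finset.notMem_empty a)⟩
  | insert b S hb ih =>
    obtain ⟨s, hs, h⟩ := ih
    obtain ⟨t, ht, h'⟩ := hfin b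
    refine ⟨s * t, Nat.mul_pos hs ht, fun a ha => ?_⟩
    rcases Finset.mem_insert.1 ha with rfl | ha
    · rw [mul_comm]
      exact hmul _ _ _ h'
    · exact hmul _ _ _ (h a ha)

end Common

section Final

variable {p : ℕ} [hp : Fact p.Prime]

theorem isFlatMod_of_embedding {A : ValuationSubring Qb} (hAp : A.LiesOverPrime p) {k : Type}
    [Field k] [Infinite k] (hfin : ∀ a : k, ∃ s, 0 < s ∧ a ^ (p ^ s) = a) (π : A →+* k)
    [IsLocalHom π] (hπ : Function.Surjective π) (W : WeierstrassCurve A)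
    (hΔ : (W.map π).Δ ≠ 0) {E : WeierstrassCurve Qb} (hE : W.map (algebraMap A Qb) = E)
    {X : Type} [AddCommGroup X] [Finite X] [DistribMulAction GQ X]
    (hX : IsContAction ℚ Qb X) (hdec : DecidableEq Qb)
    (ι : X →+ E.toAffine.Point) (hι : Function.Injective ι)
    (hσ : ∀ (σ : GQ) x, repP E (ι (σ • x)) = fun i => σ (repP E (ι x) i)) :
    IsFlatMod p X := by
  classical
  subst hE
  have hex := fun x => exists_redRep (π := π) hΔ (ι x)
  choose vb v lam hlam hv h1 hred using hex
  have hinv : ∀ x, (fun i => (v x i : Qb)) = lam x • repP _ (ι x) := fun x => funext (hv x)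
  -- the exponent
  have := Fintype.ofFinite X
  obtain ⟨s, hs, hpow⟩ := exists_common_pow hfin
    (Finset.univ.image fun z : X × Fin 3 => π (v z.1 z.2))
  have hpow' : ∀ x i, π (v x i) ^ (p ^ s) = π (v x i) := fun x i =>
    hpow _ (Finset.mem_image.2 ⟨(x, i), Finset.mem_univ _, rfl⟩)
  obtain ⟨d, hd⟩ : ∃ d, p ^ s = d + 1 := ⟨p ^ s - 1, by
    have := Nat.pos_of_ne_zero (pow_ne_zero s hp.out.ne_zero)
    omega⟩
  have hd0 : 0 < d := by
    have h2 : 2 ≤ p ^ s := le_trans hp.out.two_le (Nat.le_self_pow hs.ne' p)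
    omega
  have hform : ∀ x, form d (fun i => π (v x i)) = 1 := by
    intro x
    refine form_eq_one (fun i => ?_) ?_
    · have h2 := hpow' x i
      rw [hd, pow_succ] at h2
      by_cases h0 : π (v x i) = 0
      · left
        rw [h0, zero_pow hd0.ne']
      · right
        exact mul_right_cancel₀ h0 (by rw [one_mul]; exact h2)
    · obtain ⟨i, hi⟩ := h1 x
      exact ⟨i, by rw [hi, map_one, one_pow]⟩
  have hformA : ∀ x, form d (fun i => (v x i : Qb)) = ((form d (v x) : A) : Qb) := fun x =>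
    form_map d (algebraMap A Qb) (v x)
  have hunit : ∀ x, IsUnit (form d (v x)) := by
    intro x
    refine isUnit_of_map_unit π _ ?_
    rw [← form_map]
    change IsUnit (form d (fun i => π (v x i)))
    rw [hform]
    exact isUnit_one
  refine isFlatMod_of_proj hX A hAp (fun x => repP _ (ι x)) (fun x i => (v x i : Qb)) lam hlam hinv
    hσ ?_ (fun x i => (v x i).2) (d := d) ?_ ?_ hd0
    (exists_law π W ι v vb hred hπ hΔ) (exists_neg_law π W ι v vb hred)
  · intro x y c hc
    apply hι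
    have hx := isRep_repP _ (ι x)
    have hy := isRep_repP _ (ι y)
    have hc0 : c ≠ 0 := by
      rintro rfl
      rw [zero_smul] at hc
      exact hx.ne_zero hc
    have h2 := hy.smul hc0
    rw [← hx.2, ← h2.2, hc]
  · intro x
    rw [hformA]
    intro h0
    have h2 : form d (v x) = 0 := Subtype.ext h0
    exact (hunit x).ne_zero h2
  · intro x
    rw [hformA]
    obtain ⟨u, hu⟩ := hunit x
    have h2 : ((form d (v x) : A) : Qb) * ((↑u⁻¹ : A) : Qb) = 1 := by
      rw [← hu]
      exact congrArg (fun z : A => (z : Qb)) (Units.mul_inv u)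
    rw [inv_eq_of_mul_eq_one_right h2]
    exact Subtype.property _

end Final

end Fermat.Agent.EFlat
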