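import Fermat.Agent.HopfOrder.Local
import Fermat.Agent.HopfOrder.Criterion
import Fermat.Agent.HopfOrder.RatLoc

/-!
Descent and localisation of orders in algebras of equivariant functions.
-/

set_option autoImplicit false
set_option linter.unusedSectionVars false

open Polynomial

namespace Fermat.Agent.EFlat

open Fermat.Agent.HopfOrder

section Desc

variable {R Ω : Type} [CommRing R] [IsDomain R] [IsPrincipalIdealRing R] [IsLocalRing R]
  [Field Ω] [Algebra R ℚ] [IsFractionRing R ℚ] [Algebra ℚ Ω] [Algebra R Ω] [IsScalarTower R ℚ Ω]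
  [IsGalois ℚ Ω] {Z : Type} [MulAction (Ω ≃ₐ[ℚ] Ω) Z]
  (A : ValuationSubring Ω) (hA : ∀ r : R, algebraMap R Ω r ∈ A)
  (hAm : ∀ r : R, ¬ IsUnit r → algebraMap R Ω r ∈ A.nonunits)

include hAm in
theorem rat_mem {q : ℚ} (hq : algebraMap ℚ Ω q ∈ A) : ∃ r : R, algebraMap R ℚ r = q := by
  have : ValuationRing R := ValuationRing.iff_local_bezout_domain.2 ⟨inferInstance, inferInstance⟩
  rcases ValuationRing.isInteger_or_isInteger R q with ⟨r, hr⟩ | ⟨r, hr⟩
  · exact ⟨r, hr⟩
  · by_cases hu : IsUnit r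
    · obtain ⟨u, rfl⟩ := hu
      refine ⟨(↑u⁻¹ : R), ?_⟩
      have h1 : algebraMap R ℚ (↑u : R) * algebraMap R ℚ (↑u⁻¹ : R) = 1 := by
        rw [← map_mul, Units.mul_inv, map_one]
      rw [hr] at h1
      have hq0 : q ≠ 0 := by
        rintro rfl
        rw [inv_zero, zero_mul] at h1
        exact zero_ne_one h1
      calc algebraMap R ℚ (↑u⁻¹ : R) = q * (q⁻¹ * algebraMap R ℚ (↑u⁻¹ : R)) := by
            rw [← mul_assoc, mul_inv_cancel₀ hq0, one_mul]
        _ = q := by rw [h1, mul_one]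
    · have h1 := hAm r hu
      rw [IsScalarTower.algebraMap_apply R ℚ Ω, hr, map_inv₀] at h1
      by_cases hq0 : q = 0
      · exact ⟨0, by rw [map_zero, hq0]⟩
      have h2 : A.valuation (algebraMap ℚ Ω q)⁻¹ < 1 := (ValuationSubring.mem_nonunits_iff A).1 h1
      exfalso
      rw [map_inv₀] at h2
      have h3 : A.valuation (algebraMap ℚ Ω q) ≤ 1 := (A.valuation_le_one_iff _).2 hq
      have h4 : A.valuation (algebraMap ℚ Ω q) ≠ 0 :=
        (Valuation.ne_zero_iff _).2 ((map_ne_zero_iff _ (algebraMap ℚ Ω).injective).2 hq0)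
      have h5 := inv_lt_one₀ (zero_lt_iff.2 h4) |>.1 h2
      exact absurd h5 (not_lt.2 h3)

include hAm in
theorem fixed_mem {a : Ω} (ha : a ∈ A) (hfix : ∀ σ : Ω ≃ₐ[ℚ] Ω, σ a = a) :
    ∃ r : R, algebraMap R Ω r = a := by
  obtain ⟨q, rfl⟩ := (InfiniteGalois.mem_range_algebraMap_iff_fixed a).2 hfix
  obtain ⟨r, rfl⟩ := rat_mem A hAm ha
  exact ⟨r, IsScalarTower.algebraMap_apply R ℚ Ω r⟩

include hAm in
/-- Equivariant functions with values in `A` are integral. -/
theorem isIntegral_of_mem [Finite Z] {φ : Z → Ω} (hφ : ∀ z, φ z ∈ A)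
    (heq : ∀ (σ : Ω ≃ₐ[ℚ] Ω) z, φ (σ • z) = σ (φ z)) (z : Z) : IsIntegral R (φ z) := by
  classical
  have := Fintype.ofFinite Z
  let P : Polynomial Ω := ∏ z, (X - C (φ z))
  have hmon : P.Monic := monic_prod_X_sub_C _ _
  have hmem : ∀ n, P.coeff n ∈ A := by
    intro n
    have h1 : P = (∏ z, (X - C (⟨φ z, hφ z⟩ : A))).map (algebraMap A Ω) := by
      rw [Polynomial.map_prod]
      exact Finset.prod_congr rfl fun z _ => by
        rw [Polynomial.map_sub, map_X, map_C]; rfl
    rw [h1, coeff_map]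
    exact Subtype.property _
  have hfix : ∀ n (σ : Ω ≃ₐ[ℚ] Ω), σ (P.coeff n) = P.coeff n := by
    intro n σ
    have h1 : P.map (σ : Ω →+* Ω) = P := by
      rw [Polynomial.map_prod]
      have h2 : ∀ z, (X - C (φ z)).map (σ : Ω →+* Ω) = X - C (φ (σ • z)) := by
        intro z
        rw [Polynomial.map_sub, map_X, map_C, heq]
        rfl
      rw [Finset.prod_congr rfl fun z _ => h2 z]
      exact Fintype.prod_equiv (MulAction.toPerm σ) _ _ fun z => rfl
    have h2 := congrArg (fun Q => Q.coeff n) h1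
    rw [coeff_map] at h2
    exact h2
  have hl : P ∈ Polynomial.lifts (algebraMap R Ω) := by
    rw [Polynomial.lifts_iff_coeff_lifts]
    intro n
    obtain ⟨r, hr⟩ := fixed_mem A hAm (hmem n) (hfix n)
    exact ⟨r, hr⟩
  obtain ⟨Q, hQ, -, hQm⟩ := Polynomial.lifts_and_natDegree_eq_and_monic hl hmon
  refine ⟨Q, hQm, ?_⟩
  rw [← eval_map, hQ, eval_prod]
  exact Finset.prod_eq_zero (Finset.mem_univ z) (by rw [eval_sub, eval_X, eval_C, sub_self])

/-- The local version of an algebra of functions. -/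
def loc (B : Subalgebra R (Z → Ω)) : Subalgebra A (Z → Ω) := Algebra.adjoin A (B : Set (Z → Ω))

theorem loc_toSubmodule (B : Subalgebra R (Z → Ω)) :
    Subalgebra.toSubmodule (loc A B) = Submodule.span A (B : Set (Z → Ω)) := by
  unfold loc
  rw [Algebra.adjoin_eq_span]
  congr 1
  exact Submonoid.closure_eq B.toSubmonoid |> congrArg SetLike.coe

theorem mem_loc {B : Subalgebra R (Z → Ω)} {φ : Z → Ω} (h : φ ∈ B) : φ ∈ loc A B :=
  Algebra.subset_adjoin h

include hA hAm in
/-- Descent. -/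
theorem mem_of_mem_loc [Finite Z] (hZ : IsContAction ℚ Ω Z) {B : Subalgebra R (Z → Ω)}
    (hB : B ≤ equivInt R ℚ Ω Z)
    {φ : Z → Ω} (heq : ∀ (σ : Ω ≃ₐ[ℚ] Ω) z, φ (σ • z) = σ (φ z)) (hφ : φ ∈ loc A B) : φ ∈ B := by
  classical
  have hnoe : Module.Finite R (equivInt R ℚ Ω Z) := equivInt_finite hZ
  have hfin : Module.Finite R B :=
    Module.Finite.of_injective (Subalgebra.inclusion hB).toLinearMap
      (Subalgebra.inclusion_injective hB)
  have hinj : Function.Injective (algebraMap R Ω) := by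
    rw [IsScalarTower.algebraMap_eq R ℚ Ω]
    exact (algebraMap ℚ Ω).injective.comp (IsFractionRing.injective R ℚ)
  have h1 : Module.IsTorsionFree R Ω := by
    rw [Module.isTorsionFree_iff_algebraMap_injective]
    exact hinj
  have h2 : Module.IsTorsionFree R B := inferInstance
  have h3 : Module.Free R B := inferInstance
  let b := Module.finBasis R B
  have hind := indep_of_equivariant (K := ℚ) _ B (fun h hh => (hB hh).2) b b.linearIndependent
  have hspan : Submodule.span A (B : Set (Z → Ω)) ≤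
      Submodule.span A (Set.range fun i => (b i : Z → Ω)) := by
    refine Submodule.span_le.2 ?_
    intro f hf
    have h4 := b.sum_repr ⟨f, hf⟩
    have h5 : f = ∑ i, algebraMap R Ω (b.repr ⟨f, hf⟩ i) • (b i : Z → Ω) := by
      have h6 : ((∑ i, b.repr ⟨f, hf⟩ i • b i : B) : Z → Ω) = f :=
        congrArg (fun g : B => (g : Z → Ω)) h4
      refine h6.symm.trans ?_
      simp only [AddSubmonoidClass.coe_finsetSum, Subalgebra.coe_smul]
      exact Finset.sum_congr rfl fun i _ => by
        funext z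
        simp [Algebra.smul_def]
    rw [h5]
    refine Submodule.sum_mem _ fun i _ => ?_
    have h6 : algebraMap R Ω (b.repr ⟨f, hf⟩ i) • (b i : Z → Ω) =
        (⟨algebraMap R Ω (b.repr ⟨f, hf⟩ i), hA _⟩ : A) • (b i : Z → Ω) := rfl
    rw [h6]
    exact Submodule.smul_mem _ _ (Submodule.subset_span ⟨i, rfl⟩)
  have h4 : φ ∈ Submodule.span A (Set.range fun i => (b i : Z → Ω)) := by
    refine hspan ?_
    rw [← loc_toSubmodule]
    exact hφ
  obtain ⟨c, hc⟩ := (Submodule.mem_span_range_iff_exists_fun A).1 h4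
  have hfix : ∀ i (σ : Ω ≃ₐ[ℚ] Ω), σ (c i : Ω) = c i := by
    intro i σ
    have h5 : ∑ j, (σ (c j : Ω) - (c j : Ω)) • (b j : Z → Ω) = 0 := by
      funext z
      obtain ⟨z', rfl⟩ : ∃ z', z = σ • z' := ⟨σ⁻¹ • z, by rw [smul_inv_smul]⟩
      have h6 := heq σ z'
      rw [← hc] at h6
      simp only [Finset.sum_apply, Pi.smul_apply, map_sum] at h6
      simp only [Finset.sum_apply, Pi.smul_apply, Pi.sub_apply, Pi.zero_apply, sub_smul,
        Finset.sum_sub_distrib, sub_eq_zero]
      have h7 : ∀ j, (b j : Z → Ω) (σ • z') = σ ((b j : Z → Ω) z') := fun j =>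
        (hB (b j).2).2 σ z'
      have h8 : ∀ j, σ (c j • (b j : Z → Ω) z') = σ (c j : Ω) • (b j : Z → Ω) (σ • z') := by
        intro j
        rw [h7, smul_eq_mul, ← map_mul]
        rfl
      rw [← Finset.sum_congr rfl fun j _ => h8 j]
      exact h6.symm
    have h6 := Fintype.linearIndependent_iff.1 hind _ h5 i
    exact sub_eq_zero.1 h6
  have hR : ∀ i, ∃ r : R, algebraMap R Ω r = c i := fun i => fixed_mem A hAm (c i).2 (hfix i)
  choose r hr using hR
  have h5 : φ = ((∑ i, r i • b i : B) : Z → Ω) := by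
    rw [← hc]
    simp only [AddSubmonoidClass.coe_finsetSum, Subalgebra.coe_smul]
    refine Finset.sum_congr rfl fun i _ => ?_
    funext z
    simp only [Pi.smul_apply, Algebra.smul_def, hr]
    rfl
  rw [h5]
  exact Subtype.property _

theorem apply_mem_of_mem_loc {B : Subalgebra R (Z → Ω)} (hB : ∀ f ∈ B, ∀ z, f z ∈ A) {φ : Z → Ω}
    (h : φ ∈ loc A B) (z : Z) : φ z ∈ A := by
  unfold loc at h
  induction h using Algebra.adjoin_induction with
  | mem φ hφ => exact hB φ hφ z
  | algebraMap r => exact r.2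
  | add a b _ _ ha hb => exact A.add_mem _ _ ha hb
  | mul a b _ _ ha hb => exact A.mul_mem _ _ ha hb

/-- Localisation. -/
theorem mem_loc_of_local [Finite Z] {B : Subalgebra R (Z → Ω)} (hB : ∀ f ∈ B, ∀ z, f z ∈ A)
    {φ : Z → Ω}
    (h : ∀ z, ∃ g ∈ loc A B, g z ≠ 0 ∧ (g z)⁻¹ ∈ A ∧ g * φ ∈ loc A B) : φ ∈ loc A B := by
  classical
  have := Fintype.ofFinite Z
  let ev : loc A B →+* (Z → A) :=
    { toFun := fun f z => ⟨(f : Z → Ω) z, apply_mem_of_mem_loc A hB f.2 z⟩
      map_one' := rfl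
      map_mul' := fun f g => rfl
      map_zero' := rfl
      map_add' := fun f g => rfl }
  letI alg : Algebra (loc A B) (Z → A) := ev.toAlgebra
  have hint : Algebra.IsIntegral (loc A B) (Z → A) := by
    refine ⟨fun f => ?_⟩
    refine ⟨∏ z, (X - C (algebraMap A (loc A B) (f z))), monic_prod_X_sub_C _ _, ?_⟩
    funext z
    have h1 : (Polynomial.eval₂ (algebraMap (loc A B) (Z → A)) f
        (∏ z, (X - C (algebraMap A (loc A B) (f z))))) z =
        Polynomial.eval₂ ((Pi.evalRingHom (fun _ : Z => A) z).comp (algebraMap (loc A B) (Z → A)))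
          (f z) (∏ z, (X - C (algebraMap A (loc A B) (f z)))) :=
      Polynomial.hom_eval₂ _ _ (Pi.evalRingHom (fun _ : Z => A) z) f
    rw [h1, Polynomial.eval₂_finsetProd]
    refine Finset.prod_eq_zero (Finset.mem_univ z) ?_
    rw [eval₂_sub, eval₂_X, eval₂_C, sub_eq_zero]
    rfl
  let I : Ideal (loc A B) :=
    { carrier := {g | (g : Z → Ω) * φ ∈ loc A B}
      add_mem' := fun {a b} ha hb => by
        change ((a : Z → Ω) + b) * φ ∈ loc A B
        rw [add_mul]
        exact (loc A B).add_mem ha hb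
      zero_mem' := by
        change (0 : Z → Ω) * φ ∈ loc A B
        rw [zero_mul]
        exact (loc A B).zero_mem
      smul_mem' := fun c a ha => by
        change ((c : Z → Ω) * a) * φ ∈ loc A B
        rw [mul_assoc]
        exact (loc A B).mul_mem c.2 ha }
  by_contra hcon
  have hne : I ≠ ⊤ := by
    intro htop
    apply hcon
    have h1 : (1 : loc A B) ∈ I := by rw [htop]; trivial
    have h2 : (1 : Z → Ω) * φ ∈ loc A B := h1
    rwa [one_mul] at h2
  obtain ⟨m, hm, hIm⟩ := Ideal.exists_le_maximal I hne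
  have hker : RingHom.ker (algebraMap (loc A B) (Z → A)) ≤ m := by
    intro f hf
    have h1 : f = 0 := by
      apply Subtype.ext
      funext z
      exact congrArg (fun g : Z → A => ((g z : A) : Ω)) hf
    rw [h1]
    exact m.zero_mem
  obtain ⟨Q, hQm, hQ⟩ := Ideal.exists_ideal_over_maximal_of_isIntegral m hker
  -- a point where everything in `Q` is a nonunit
  obtain ⟨z, hz⟩ : ∃ z : Z, Pi.single z (1 : A) ∉ Q := by
    by_contra hall
    push Not at hall
    apply hQm.ne_top
    rw [Ideal.eq_top_iff_one]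
    have h1 : (1 : Z → A) = ∑ z, Pi.single z 1 := by
      funext w
      rw [Finset.sum_apply, Finset.sum_eq_single w]
      · rw [Pi.single_eq_same]; rfl
      · intro b _ hb
        rw [Pi.single_eq_of_ne hb.symm]
      · intro h; exact absurd (Finset.mem_univ w) h
    rw [h1]
    exact Ideal.sum_mem _ fun z _ => hall z
  obtain ⟨g, hg, hg0, hginv, hgφ⟩ := h z
  have h1 : (⟨g, hg⟩ : loc A B) ∈ m := hIm hgφ
  rw [← hQ, Ideal.mem_comap] at h1
  apply hz
  have h2 : Pi.single z (1 : A) = algebraMap (loc A B) (Z → A) ⟨g, hg⟩ *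
      Pi.single z (⟨(g z)⁻¹, hginv⟩ : A) := by
    funext w
    by_cases hw : w = z
    · subst hw
      rw [Pi.mul_apply, Pi.single_eq_same, Pi.single_eq_same]
      exact Subtype.ext (mul_inv_cancel₀ hg0).symm
    · rw [Pi.mul_apply, Pi.single_eq_of_ne hw, Pi.single_eq_of_ne hw, mul_zero]
  rw [h2]
  exact Ideal.mul_mem_right _ _ h1

end Desc

end Fermat.Agent.EFlat
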