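import Mathlib

/-!
Representatives of points of a Weierstrass curve in projective coordinates and the (incomplete)
addition law.
-/

set_option autoImplicit false
set_option linter.unusedSectionVars false

open WeierstrassCurve WeierstrassCurve.Projective

namespace Fermat.Agent.EFlat

section Field

variable {F : Type*} [Field F] {W : WeierstrassCurve F}

theorem nonsingular_of_equation (hΔ : W.Δ ≠ 0) {v : Fin 3 → F} (hv : W.toProjective.Equation v)
    (h0 : v ≠ 0) : W.toProjective.Nonsingular v := by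
  by_cases hz : v 2 = 0
  · have hx : v 0 = 0 := X_eq_zero_of_Z_eq_zero hv hz
    have hy : v 1 ≠ 0 := by
      intro hy
      apply h0
      funext i
      fin_cases i
      · exact hx
      · exact hy
      · exact hz
    refine (nonsingular_of_Z_eq_zero hz).2 ⟨hv, Or.inr ?_⟩
    rw [hx]
    simpa using hy
  · rw [nonsingular_of_Z_ne_zero hz]
    have h1 := (equation_of_Z_ne_zero hz).1 hv
    exact (Affine.equation_iff_nonsingular_of_Δ_ne_zero hΔ).1 h1

theorem equiv_of_toAffine_eq {u v : Fin 3 → F} (hu : W.toProjective.Nonsingular u)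
    (hv : W.toProjective.Nonsingular v) (h : Point.toAffine W u = Point.toAffine W v) : u ≈ v := by
  by_cases hz : u 2 = 0
  · by_cases hz' : v 2 = 0
    · exact equiv_of_Z_eq_zero hu hv hz hz'
    · rw [Point.toAffine_of_Z_eq_zero hz, Point.toAffine_of_Z_ne_zero hv hz'] at h
      exact absurd h.symm (Affine.Point.some_ne_zero _)
  · by_cases hz' : v 2 = 0
    · rw [Point.toAffine_of_Z_eq_zero hz', Point.toAffine_of_Z_ne_zero hu hz] at h
      exact absurd h (Affine.Point.some_ne_zero _)
    · rw [Point.toAffine_of_Z_ne_zero hu hz, Point.toAffine_of_Z_ne_zero hv hz',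
        Affine.Point.some.injEq] at h
      exact equiv_of_X_eq_of_Y_eq hz hz' ((X_eq_iff hz hz').2 h.1) ((Y_eq_iff hz hz').2 h.2)

variable [DecidableEq F]

/-- `v` represents `P`. -/
def IsRep (W : WeierstrassCurve F) (P : W.toAffine.Point) (v : Fin 3 → F) : Prop :=
  W.toProjective.Nonsingular v ∧ Point.toAffine W v = P

/-- `v` is zero or represents `P`. -/
def ZRep (W : WeierstrassCurve F) (P : W.toAffine.Point) (v : Fin 3 → F) : Prop :=
  v = 0 ∨ IsRep W P v

theorem IsRep.add {P Q : W.toAffine.Point} {u v : Fin 3 → F} (hu : IsRep W P u)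
    (hv : IsRep W Q v) (h : ¬ u ≈ v) : IsRep W (P + Q) (W.toProjective.addXYZ u v) := by
  have h1 := nonsingular_add hu.1 hv.1
  have h2 := Point.toAffine_add hu.1 hv.1
  rw [add_of_not_equiv h] at h1 h2
  exact ⟨h1, by rw [h2, hu.2, hv.2]⟩

theorem IsRep.ne_zero {P : W.toAffine.Point} {u : Fin 3 → F} (hu : IsRep W P u) : u ≠ 0 := by
  rintro rfl
  have h1 := Y_ne_zero_of_Z_eq_zero hu.1 rfl
  exact h1 rfl

theorem IsRep.neg {P : W.toAffine.Point} {u : Fin 3 → F} (hu : IsRep W P u) :
    IsRep W (-P) (W.toProjective.neg u) :=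
  ⟨nonsingular_neg hu.1, by rw [Point.toAffine_neg hu.1, hu.2]⟩

theorem IsRep.smul {P : W.toAffine.Point} {u : Fin 3 → F} (hu : IsRep W P u) {c : F}
    (hc : c ≠ 0) : IsRep W P (c • u) :=
  ⟨(nonsingular_smul u (Ne.isUnit hc)).2 hu.1, by
    rw [Point.toAffine_smul u (Ne.isUnit hc), hu.2]⟩

theorem IsRep.zrep {P : W.toAffine.Point} {u : Fin 3 → F} (hu : IsRep W P u) : ZRep W P u :=
  Or.inr hu

theorem addXYZ_zero_left (v : Fin 3 → F) : W.toProjective.addXYZ 0 v = 0 := by
  have h := addXYZ_smul (W' := W) v v 0 1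
  rw [zero_smul, one_smul, zero_mul, zero_pow two_ne_zero, zero_smul] at h
  exact h

theorem addXYZ_zero_right (v : Fin 3 → F) : W.toProjective.addXYZ v 0 = 0 := by
  have h := addXYZ_smul (W' := W) v v 1 0
  rw [zero_smul, one_smul, mul_zero, zero_pow two_ne_zero, zero_smul] at h
  exact h

theorem addXYZ_of_equiv {u v : Fin 3 → F} (h : u ≈ v) : W.toProjective.addXYZ u v = 0 := by
  obtain ⟨c, rfl⟩ := h
  have h1 := addXYZ_smul (W' := W) v v (c : F) 1
  rw [one_smul, addXYZ_self] at h1
  refine h1.trans ?_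
  funext i
  fin_cases i <;> simp

theorem ZRep.add {P Q : W.toAffine.Point} {u v : Fin 3 → F} (hu : ZRep W P u)
    (hv : ZRep W Q v) : ZRep W (P + Q) (W.toProjective.addXYZ u v) := by
  rcases hu with rfl | hu
  · exact Or.inl (addXYZ_zero_left v)
  rcases hv with rfl | hv
  · exact Or.inl (addXYZ_zero_right u)
  by_cases h : u ≈ v
  · exact Or.inl (addXYZ_of_equiv h)
  · exact Or.inr (hu.add hv h)

theorem ZRep.exists_smul {P : W.toAffine.Point} {u v : Fin 3 → F} (hu : ZRep W P u)
    (hv : IsRep W P v) : ∃ c : F, u = c • v := by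
  rcases hu with rfl | hu
  · exact ⟨0, by rw [zero_smul]⟩
  · obtain ⟨c, hc⟩ := equiv_of_toAffine_eq hu.1 hv.1 (hu.2.trans hv.2.symm)
    exact ⟨c, hc.symm⟩

end Field

end Fermat.Agent.EFlat
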