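import Fermat.Agent.EFlat.Alg

/-!
Reduction of points and the addition law.
-/

set_option autoImplicit false
set_option linter.unusedSectionVars false

open WeierstrassCurve WeierstrassCurve.Projective

namespace Fermat.Agent.EFlat

section Red

variable {Ω : Type*} [Field Ω] [DecidableEq Ω] {A : ValuationSubring Ω} {k : Type*} [Field k]
  [DecidableEq k] (π : A →+* k) [hloc : IsLocalHom π] (W : WeierstrassCurve A)

/-- An integral vector representing `P` whose reduction represents `Pb`. -/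
def RedRep (P : (W.map (algebraMap A Ω)).toAffine.Point) (Pb : (W.map π).toAffine.Point)
    (v : Fin 3 → A) : Prop :=
  IsRep (W.map (algebraMap A Ω)) P (fun i => (v i : Ω)) ∧ IsRep (W.map π) Pb (fun i => π (v i))

variable {π W}

theorem RedRep.isUnit {P : (W.map (algebraMap A Ω)).toAffine.Point}
    {Pb : (W.map π).toAffine.Point} {v : Fin 3 → A} (h : RedRep π W P Pb v) :
    ∃ i, IsUnit (v i) := by
  by_contra hall
  push Not at hall
  apply h.2.ne_zero
  funext i
  by_contra hi
  exact hall i (isUnit_of_map_unit π _ (isUnit_iff_ne_zero.2 hi))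

theorem RedRep.not_equiv {P Q : (W.map (algebraMap A Ω)).toAffine.Point}
    {Pb Qb : (W.map π).toAffine.Point} {v w : Fin 3 → A} (hv : RedRep π W P Pb v)
    (hw : RedRep π W Q Qb w) (h : Pb ≠ Qb) :
    ¬ (fun i => π (v i) : Fin 3 → k) ≈ (fun i => π (w i)) := by
  intro he
  apply h
  rw [← hv.2.2, ← hw.2.2]
  exact Point.toAffine_of_equiv he

theorem RedRep.not_equiv' {P Q : (W.map (algebraMap A Ω)).toAffine.Point}
    {Pb Qb : (W.map π).toAffine.Point} {v w : Fin 3 → A} (hv : RedRep π W P Pb v)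
    (hw : RedRep π W Q Qb w) (h : Pb ≠ Qb) :
    ¬ (fun i => (v i : Ω) : Fin 3 → Ω) ≈ (fun i => (w i : Ω)) := by
  rintro ⟨μ, hμ⟩
  refine hv.not_equiv hw h ?_
  have h1 : ∀ i, (μ : Ω) * (w i : Ω) = v i := fun i => congrFun hμ i
  obtain ⟨i, hi⟩ := hw.isUnit
  obtain ⟨j, hj⟩ := hv.isUnit
  obtain ⟨a, ha⟩ := hi
  obtain ⟨b, hb⟩ := hj
  -- `μ` as an element of `A`
  have hμ1 : (μ : Ω) = (v i * (↑a⁻¹ : A) : A) := by
    have h2 : ((w i : A) : Ω) * ((↑a⁻¹ : A) : Ω) = 1 := by
      rw [← ha]
      exact congrArg (fun z : A => (z : Ω)) (Units.mul_inv a)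
    calc (μ : Ω) = (μ : Ω) * (((w i : A) : Ω) * ((↑a⁻¹ : A) : Ω)) := by rw [h2, mul_one]
      _ = ((v i : A) : Ω) * ((↑a⁻¹ : A) : Ω) := by rw [← mul_assoc, h1]
      _ = _ := rfl
  have h3 : ∀ l, v i * (↑a⁻¹ : A) * w l = v l := by
    intro l
    apply Subtype.ext
    have h4 := h1 l
    rw [hμ1] at h4
    exact h4
  have hu : IsUnit (v i * (↑a⁻¹ : A)) := by
    have h4 := h3 j
    rw [← hb] at h4
    exact isUnit_of_mul_isUnit_left (h4 ▸ b.isUnit)
  have hu' : IsUnit (π (v i * (↑a⁻¹ : A))) := hu.map π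
  refine ⟨hu'.unit, ?_⟩
  funext l
  have h5 := congrArg π (h3 l)
  rw [map_mul] at h5
  exact h5

theorem RedRep.add {P Q : (W.map (algebraMap A Ω)).toAffine.Point}
    {Pb Qb : (W.map π).toAffine.Point} {v w : Fin 3 → A} (hv : RedRep π W P Pb v)
    (hw : RedRep π W Q Qb w) (h : Pb ≠ Qb) :
    RedRep π W (P + Q) (Pb + Qb) (W.toProjective.addXYZ v w) := by
  refine ⟨?_, ?_⟩
  · have h1 := hv.1.add hw.1 (hv.not_equiv' hw h)
    have h2 := map_addXYZ (W' := W) (algebraMap A Ω) v w
    have h3 : (fun i => ((W.toProjective.addXYZ v w i : A) : Ω)) =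
        (W.map (algebraMap A Ω)).toProjective.addXYZ (fun i => (v i : Ω)) (fun i => (w i : Ω)) :=
      h2.symm
    rw [h3]
    exact h1
  · have h1 := hv.2.add hw.2 (hv.not_equiv hw h)
    have h2 := map_addXYZ (W' := W) π v w
    have h3 : (fun i => π (W.toProjective.addXYZ v w i)) =
        (W.map π).toProjective.addXYZ (fun i => π (v i)) (fun i => π (w i)) :=
      h2.symm
    rw [h3]
    exact h1

theorem RedRep.neg {P : (W.map (algebraMap A Ω)).toAffine.Point}
    {Pb : (W.map π).toAffine.Point} {v : Fin 3 → A} (hv : RedRep π W P Pb v) :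
    RedRep π W (-P) (-Pb) (W.toProjective.neg v) := by
  refine ⟨?_, ?_⟩
  · have h1 := hv.1.neg
    have h2 := Projective.map_neg (W' := W) (algebraMap A Ω) v
    have h3 : (fun i => ((W.toProjective.neg v i : A) : Ω)) =
        (W.map (algebraMap A Ω)).toProjective.neg (fun i => (v i : Ω)) :=
      h2.symm
    rw [h3]
    exact h1
  · have h1 := hv.2.neg
    have h2 := Projective.map_neg (W' := W) π v
    have h3 : (fun i => π (W.toProjective.neg v i)) =
        (W.map π).toProjective.neg (fun i => π (v i)) :=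
      h2.symm
    rw [h3]
    exact h1

theorem Δ_ne_zero (hΔ : (W.map π).Δ ≠ 0) : (W.map (algebraMap A Ω)).Δ ≠ 0 := by
  rw [WeierstrassCurve.map_Δ] at hΔ ⊢
  intro h
  apply hΔ
  rw [(map_eq_zero_iff _ (FaithfulSMul.algebraMap_injective A Ω)).1 h, map_zero]

/-- Integral solutions of the equation with nonzero reduction. -/
theorem redRep_of_equation (hΔ : (W.map π).Δ ≠ 0) {v : Fin 3 → A} (hv : W.toProjective.Equation v)
    (h0 : ∃ i, IsUnit (v i)) :
    RedRep π W (Point.toAffine (W.map (algebraMap A Ω)) (fun i => (v i : Ω)))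
      (Point.toAffine (W.map π) (fun i => π (v i))) v := by
  obtain ⟨i, hi⟩ := h0
  refine ⟨⟨nonsingular_of_equation (Δ_ne_zero hΔ) (Equation.map (algebraMap A Ω) hv) ?_, rfl⟩,
    ⟨nonsingular_of_equation hΔ (Equation.map π hv) ?_, rfl⟩⟩
  · intro h
    have h1 : ((v i : A) : Ω) = 0 := congrFun h i
    have h2 : v i = 0 := Subtype.ext h1
    rw [h2] at hi
    exact not_isUnit_zero hi
  · intro h
    have h1 : π (v i) = 0 := congrFun h i
    exact (hi.map π).ne_zero h1

/-- canonical coordinates -/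
def repP (E : WeierstrassCurve Ω) : E.toAffine.Point → Fin 3 → Ω
  | .zero => ![0, 1, 0]
  | .some x y _ => ![x, y, 1]

theorem isRep_repP (E : WeierstrassCurve Ω) (P : E.toAffine.Point) : IsRep E P (repP E P) := by
  rcases P with _ | ⟨x, y, h⟩
  · exact ⟨nonsingular_zero, Point.toAffine_zero⟩
  · exact ⟨(nonsingular_some x y).2 h, Point.toAffine_some ((nonsingular_some x y).2 h)⟩

/-- Every point has a primitive integral representative. -/
theorem exists_redRep (hΔ : (W.map π).Δ ≠ 0) (P : (W.map (algebraMap A Ω)).toAffine.Point) :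
    ∃ (Pb : (W.map π).toAffine.Point) (v : Fin 3 → A) (c : Ω), c ≠ 0 ∧
      (∀ i, (v i : Ω) = c * repP _ P i) ∧ (∃ i, v i = 1) ∧ RedRep π W P Pb v := by
  have hr := isRep_repP _ P
  obtain ⟨i, -, hi⟩ := Finset.exists_max_image (Finset.univ : Finset (Fin 3))
    (fun i => A.valuation (repP (W.map (algebraMap A Ω)) P i)) ⟨0, Finset.mem_univ _⟩
  have hne : repP (W.map (algebraMap A Ω)) P i ≠ 0 := by
    intro h0
    apply hr.ne_zero
    funext j
    have h1 := hi j (Finset.mem_univ j)
    rw [h0, map_zero] at h1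
    exact (Valuation.zero_iff _).1 (le_zero_iff.1 h1)
  have hmem : ∀ j, (repP (W.map (algebraMap A Ω)) P i)⁻¹ * repP (W.map (algebraMap A Ω)) P j ∈ A := by
    intro j
    rw [← A.valuation_le_one_iff, map_mul, map_inv₀]
    have h1 := hi j (Finset.mem_univ j)
    have h2 : A.valuation (repP (W.map (algebraMap A Ω)) P i) ≠ 0 :=
      (Valuation.ne_zero_iff _).2 hne
    rw [inv_mul_le_iff₀ (zero_lt_iff.2 h2), mul_one]
    exact h1
  let v : Fin 3 → A := fun j => ⟨_, hmem j⟩
  have hvr : (fun j => (v j : Ω)) =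
      (repP (W.map (algebraMap A Ω)) P i)⁻¹ • repP (W.map (algebraMap A Ω)) P := rfl
  have hvi : v i = 1 := Subtype.ext (inv_mul_cancel₀ hne)
  have hrep : IsRep (W.map (algebraMap A Ω)) P (fun j => (v j : Ω)) := by
    rw [hvr]
    exact hr.smul (inv_ne_zero hne)
  have heq : W.toProjective.Equation v :=
    (map_equation (W' := W) (f := algebraMap A Ω) (FaithfulSMul.algebraMap_injective A Ω) v).1
      hrep.1.1
  have h := redRep_of_equation (π := π) hΔ heq ⟨i, by rw [hvi]; exact isUnit_one⟩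
  refine ⟨_, v, _, inv_ne_zero hne, fun _ => rfl, ⟨i, hvi⟩, hrep, h.2⟩

/-- The two-division polynomial does not vanish identically. -/
theorem exists_not_root {E : WeierstrassCurve k} (hΔ : E.Δ ≠ 0) :
    (Polynomial.C (4 : k) * Polynomial.X ^ 3 + Polynomial.C E.b₂ * Polynomial.X ^ 2 +
      Polynomial.C (2 * E.b₄) * Polynomial.X + Polynomial.C E.b₆ : Polynomial k) ≠ 0 := by
  intro h
  have h3 := congrArg (fun q : Polynomial k => q.coeff 3) h
  have h2 := congrArg (fun q : Polynomial k => q.coeff 2) h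
  have h1 := congrArg (fun q : Polynomial k => q.coeff 1) h
  have h0 := congrArg (fun q : Polynomial k => q.coeff 0) h
  simp only [Polynomial.coeff_add, Polynomial.coeff_C_mul, Polynomial.coeff_X_pow,
    Polynomial.coeff_X, Polynomial.coeff_C, Polynomial.coeff_zero] at h3 h2 h1 h0
  norm_num at h3 h2 h1 h0
  apply hΔ
  have h4 : (2 : k) = 0 := by
    have : (2 : k) * 2 = 0 := by
      norm_num
      exact h3
    exact mul_self_eq_zero.1 this
  rw [WeierstrassCurve.Δ, h2, h0]
  linear_combination (-4 * E.b₄ ^ 3) * h4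

/-- Auxiliary points. -/
theorem exists_aux [IsAlgClosed Ω] [Infinite k] (hπ : Function.Surjective π)
    (hΔ : (W.map π).Δ ≠ 0) (P Q : (W.map π).toAffine.Point) :
    ∃ (T : (W.map (algebraMap A Ω)).toAffine.Point) (Tb : (W.map π).toAffine.Point)
      (t : Fin 3 → A), RedRep π W T Tb t ∧ Tb ≠ P ∧ Tb ≠ Q ∧ Tb ≠ -Tb := by
  classical
  let xs : (W.map π).toAffine.Point → Finset k := fun P => match P with
    | .zero => ∅
    | .some x _ _ => {x}
  let F : Finset k := xs P ∪ xs Q ∪ (Polynomial.C (4 : k) * Polynomial.X ^ 3 +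
    Polynomial.C (W.map π).b₂ * Polynomial.X ^ 2 +
      Polynomial.C (2 * (W.map π).b₄) * Polynomial.X +
        Polynomial.C (W.map π).b₆ : Polynomial k).roots.toFinset
  obtain ⟨x₀, hx₀⟩ := Infinite.exists_notMem_finset F
  obtain ⟨ξ, rfl⟩ := hπ x₀
  -- the ordinate
  obtain ⟨η, hη⟩ : ∃ η : A, W.toProjective.Equation ![ξ, η, 1] := by
    let q : Polynomial A := Polynomial.X ^ 2 + (Polynomial.C (W.a₁ * ξ + W.a₃) * Polynomial.X -
      Polynomial.C (ξ ^ 3 + W.a₂ * ξ ^ 2 + W.a₄ * ξ + W.a₆))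
    have hdeg : (Polynomial.C (W.a₁ * ξ + W.a₃) * Polynomial.X -
      Polynomial.C (ξ ^ 3 + W.a₂ * ξ ^ 2 + W.a₄ * ξ + W.a₆)).degree < 2 := by
      refine lt_of_le_of_lt (Polynomial.degree_sub_le _ _) (max_lt ?_ ?_)
      · exact lt_of_le_of_lt (Polynomial.degree_C_mul_X_le _) (by norm_num)
      · exact lt_of_le_of_lt Polynomial.degree_C_le (by norm_num)
    have hmon : q.Monic := Polynomial.monic_X_pow_add hdeg
    have hqd : (q.map (algebraMap A Ω)).degree ≠ 0 := by
      rw [hmon.degree_map, Polynomial.degree_add_eq_left_of_degree_lt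
        (by rw [Polynomial.degree_X_pow]; exact hdeg), Polynomial.degree_X_pow]
      norm_num
    obtain ⟨y, hy⟩ := IsAlgClosed.exists_root _ hqd
    have hyint : IsIntegral A y := ⟨q, hmon, by
      rw [Polynomial.IsRoot.def, Polynomial.eval_map] at hy
      exact hy⟩
    obtain ⟨η, rfl⟩ := IsIntegrallyClosed.isIntegral_iff.mp hyint
    refine ⟨η, ?_⟩
    rw [Polynomial.IsRoot.def, Polynomial.eval_map, Polynomial.eval₂_at_apply,
      map_eq_zero_iff _ (FaithfulSMul.algebraMap_injective A Ω)] at hy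
    simp only [q, Polynomial.eval_add, Polynomial.eval_sub, Polynomial.eval_mul,
      Polynomial.eval_pow, Polynomial.eval_X, Polynomial.eval_C] at hy
    rw [equation_some, Affine.equation_iff]
    linear_combination hy
  have hred := redRep_of_equation (π := π) hΔ hη ⟨2, isUnit_one⟩
  have hne : (fun i => π ((![ξ, η, 1] : Fin 3 → A) i)) = ![π ξ, π η, 1] := by
    funext i
    fin_cases i
    · rfl
    · rfl
    · exact map_one π
  have hns : (W.map π).toProjective.Nonsingular ![π ξ, π η, 1] := by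
    rw [← hne]
    exact hred.2.1
  have hTb : Point.toAffine (W.map π) (fun i => π ((![ξ, η, 1] : Fin 3 → A) i)) =
      Affine.Point.some (π ξ) (π η) ((nonsingular_some _ _).1 hns) := by
    rw [hne]
    exact Point.toAffine_some hns
  have hx : ∀ R : (W.map π).toAffine.Point, π ξ ∉ xs R →
      Point.toAffine (W.map π) (fun i => π ((![ξ, η, 1] : Fin 3 → A) i)) ≠ R := by
    intro R hR h
    rw [hTb] at h
    rw [← h] at hR
    exact hR (Finset.mem_singleton_self _)
  simp only [F, Finset.mem_union, not_or] at hx₀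
  refine ⟨_, _, _, hred, hx P hx₀.1.1, hx Q hx₀.1.2, ?_⟩
  intro h
  rw [hTb, Affine.Point.neg_some, Affine.Point.some.injEq] at h
  apply hx₀.2
  rw [Multiset.mem_toFinset, Polynomial.mem_roots (exists_not_root hΔ), Polynomial.IsRoot.def]
  simp only [Polynomial.eval_add, Polynomial.eval_mul, Polynomial.eval_pow, Polynomial.eval_X,
    Polynomial.eval_C]
  have h1 : (W.map π).toAffine.Equation (π ξ) (π η) := (equation_some _ _).1 hns.1
  rw [Affine.equation_iff] at h1
  have h2 := h.2
  rw [Affine.negY] at h2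
  rw [WeierstrassCurve.b₂, WeierstrassCurve.b₄, WeierstrassCurve.b₆]
  linear_combination (2 * π η + (W.map π).a₁ * π ξ + (W.map π).a₃) * h2 - 4 * h1

end Red

end Fermat.Agent.EFlat
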